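import Mathlib
import Fermat.Prelude.Def_FLTPrelim_GaloisRep

/-!
# The tower of isogenies in Mazur's theorem

`Γ = Gal(ℚ̄/ℚ)`.  Suppose that for every elliptic curve `E` over `ℚ` with a rational point `P` of
order `p`

* (H1) `E[p] = ⟨P⟩ ⊕ L` with `L` stable under `Γ`;
* (H2) for a `Γ`-stable subgroup `L` of order `p` of `E(ℚ̄)` there are an elliptic curve `E'` over
  `ℚ` and a surjective `Γ`-equivariant homomorphism `E(ℚ̄) → E'(ℚ̄)` with kernel `L`;
* (H3) a point `x` of `p`-power order with `σ x - x ∈ ⟨P⟩` for all `σ ∈ Γ` is rational;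

then some elliptic curve over `ℚ` in the isogeny class of `E` has a rational point of order
`p ^ (n + 1)`, for every `n`; and if for one `F ∈ Γ` (a Frobenius at one good prime `r ≠ p`) the
set of points of `p`-power order of `E` fixed by `F` is finite, this is impossible, since the
number of these points does not grow along an isogeny.
-/

set_option autoImplicit false

open WeierstrassCurve WeierstrassCurve.Affine

namespace Fermat.Agent.Cor.K1

/-- The absolute Galois group of `ℚ`. -/
abbrev Gam : Type := AlgebraicClosure ℚ ≃ₐ[ℚ] AlgebraicClosure ℚ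

/-- The points of `E` over `ℚ̄`. -/
abbrev Pts (E : WeierstrassCurve ℚ) : Type := (E⁄(AlgebraicClosure ℚ)).Point

/-! ### Fixed points along an isogeny -/

section Fixed

variable {A B : Type*} [AddCommGroup A] [AddCommGroup B]

/-- The points of `p`-power order fixed by an endomorphism. -/
def fixedPrim (p : ℕ) (f : A →+ A) : AddSubgroup A where
  carrier := {x | (∃ k : ℕ, p ^ k • x = 0) ∧ f x = x}
  zero_mem' := ⟨⟨0, by simp⟩, by simp⟩
  add_mem' := by
    rintro x y ⟨⟨k, hk⟩, hx⟩ ⟨⟨l, hl⟩, hy⟩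
    refine ⟨⟨k + l, ?_⟩, by rw [map_add, hx, hy]⟩
    rw [smul_add, pow_add, mul_smul, mul_smul, hl, smul_zero, add_zero, smul_comm, hk, smul_zero]
  neg_mem' := by
    rintro x ⟨⟨k, hk⟩, hx⟩
    exact ⟨⟨k, by rw [smul_neg, hk, neg_zero]⟩, by rw [map_neg, hx]⟩

theorem mem_fixedPrim {p : ℕ} {f : A →+ A} {x : A} :
    x ∈ fixedPrim p f ↔ (∃ k : ℕ, p ^ k • x = 0) ∧ f x = x := Iff.rfl

/-- The number of fixed points of `p`-power order does not grow along a surjective equivariant
homomorphism whose kernel is finite and of `p`-power exponent. -/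
theorem finite_and_card_le {p : ℕ} {f : A →+ A} {g : B →+ B} (φ : A →+ B)
    (hs : Function.Surjective φ) (hfg : ∀ x, φ (f x) = g (φ x)) (hfin : Finite φ.ker)
    (hk : ∃ k : ℕ, ∀ x ∈ φ.ker, p ^ k • x = 0) (hA : Finite (fixedPrim p f)) :
    Finite (fixedPrim p g) ∧ Nat.card (fixedPrim p g) ≤ Nat.card (fixedPrim p f) := by
  classical
  obtain ⟨k, hk⟩ := hk
  -- the preimage of the fixed points
  let C : AddSubgroup A := (fixedPrim p g).comap φ
  have hC : ∀ x ∈ C, ∃ m : ℕ, p ^ m • x = 0 := by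
    rintro x ⟨⟨m, hm⟩, -⟩
    refine ⟨k + m, ?_⟩
    rw [pow_add, mul_smul]
    exact hk _ (by rw [AddMonoidHom.mem_ker, map_nsmul]; exact hm)
  -- the map `x ↦ f x - x` from `C` to the kernel
  let d : C →+ φ.ker :=
    { toFun := fun x => ⟨f x - x, by
        have h : g (φ (x : A)) = φ (x : A) := x.2.2
        rw [AddMonoidHom.mem_ker, map_sub, hfg, h, sub_self]⟩
      map_zero' := by ext; simp
      map_add' := fun x y => by ext; simp only [AddSubgroup.coe_add, map_add]; abel }
  -- its kernel injects into the fixed points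
  let i : d.ker → fixedPrim p f := fun x => ⟨(x : C), hC _ (x : C).2, by
    have h := congrArg (fun z : φ.ker => (z : A)) x.2
    exact sub_eq_zero.mp h⟩
  have hi : Function.Injective i := by
    intro x y h
    have := congrArg (fun z : fixedPrim p f => (z : A)) h
    exact Subtype.ext (Subtype.ext this)
  have : Finite d.ker := Finite.of_injective i hi
  have : Finite d.range := inferInstance
  have hCfin : Finite C := by
    have e := QuotientAddGroup.quotientKerEquivRange d
    have : Finite (C ⧸ d.ker) := Finite.of_equiv _ e.symm.toEquiv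
    exact Finite.of_equiv _ (AddSubgroup.addGroupEquivQuotientProdAddSubgroup (s := d.ker)).symm
  have hcardC : Nat.card C ≤ Nat.card φ.ker * Nat.card (fixedPrim p f) := by
    rw [AddSubgroup.card_eq_card_quotient_mul_card_addSubgroup d.ker,
      Nat.card_congr (QuotientAddGroup.quotientKerEquivRange d).toEquiv]
    exact Nat.mul_le_mul (Nat.card_le_card_of_injective _ Subtype.val_injective)
      (Nat.card_le_card_of_injective i hi)
  -- the map `C → fixedPrim p g`
  let q : C →+ fixedPrim p g :=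
    { toFun := fun x => ⟨φ x, x.2⟩
      map_zero' := by ext; simp
      map_add' := fun x y => by ext; simp }
  have hq : Function.Surjective q := by
    rintro ⟨y, hy⟩
    obtain ⟨x, rfl⟩ := hs y
    exact ⟨⟨x, hy⟩, rfl⟩
  have : Finite (fixedPrim p g) := Finite.of_surjective q hq
  refine ⟨inferInstance, ?_⟩
  -- the kernel of `q` is that of `φ`
  let e : q.ker ≃ φ.ker :=
    { toFun := fun x => ⟨(x : C), by
        have h := congrArg (fun z : fixedPrim p g => (z : B)) x.2
        exact h⟩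
      invFun := fun x => ⟨⟨x, by
        change φ x ∈ fixedPrim p g
        rw [AddMonoidHom.mem_ker.mp x.2]
        exact zero_mem _⟩, by
        rw [AddMonoidHom.mem_ker]
        exact Subtype.ext (AddMonoidHom.mem_ker.mp x.2)⟩
      left_inv := fun x => rfl
      right_inv := fun x => rfl }
  have h1 : Nat.card C = Nat.card (fixedPrim p g) * Nat.card φ.ker := by
    rw [AddSubgroup.card_eq_card_quotient_mul_card_addSubgroup q.ker, Nat.card_congr e,
      Nat.card_congr (QuotientAddGroup.quotientKerEquivOfSurjective q hq).toEquiv]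
  have hpos : 0 < Nat.card φ.ker := Nat.card_pos
  rw [h1, mul_comm] at hcardC
  exact Nat.le_of_mul_le_mul_left hcardC hpos

end Fixed

/-! ### The tower -/

/-- Multiplication by `p` is surjective on `E(ℚ̄)`. -/
def Divisible (p : ℕ) : Prop :=
  ∀ (E : WeierstrassCurve ℚ) [E.IsElliptic] (x : Pts E), ∃ y : Pts E, p • y = x

/-- (H1): a rational point `P` of order `p` has a Galois-stable complement in `E[p]`. -/
def Splits (p : ℕ) : Prop :=
  ∀ (E : WeierstrassCurve ℚ) [E.IsElliptic] (P : Pts E), addOrderOf P = p →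
    (∀ σ : Gam, σ • P = P) →
    ∃ L : AddSubgroup (Pts E), (∀ σ : Gam, ∀ x ∈ L, σ • x ∈ L) ∧ Nat.card L = p ∧ P ∉ L ∧
      ∀ x : Pts E, p • x = 0 → x ∈ L ⊔ AddSubgroup.zmultiples P

/-- (H2): quotients by Galois-stable subgroups of order `p`. -/
def Quotients (p : ℕ) : Prop :=
  ∀ (E : WeierstrassCurve ℚ) [E.IsElliptic] (L : AddSubgroup (Pts E)), Nat.card L = p →
    (∀ σ : Gam, ∀ x ∈ L, σ • x ∈ L) →
    ∃ (E' : WeierstrassCurve ℚ) (_ : E'.IsElliptic) (φ : Pts E →+ Pts E'),
      Function.Surjective φ ∧ (∀ (σ : Gam) (x : Pts E), φ (σ • x) = σ • φ x) ∧ φ.ker = L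

/-- (H3): a point of `p`-power order whose conjugates differ from it by multiples of a rational
point of order `p` is rational. -/
def Rationality (p : ℕ) : Prop :=
  ∀ (E : WeierstrassCurve ℚ) [E.IsElliptic] (P : Pts E), addOrderOf P = p →
    (∀ σ : Gam, σ • P = P) → ∀ x : Pts E, (∃ k : ℕ, p ^ k • x = 0) →
    (∀ σ : Gam, σ • x - x ∈ AddSubgroup.zmultiples P) → ∀ σ : Gam, σ • x = x

/-- The action of one element of the Galois group. -/
noncomputable def actHom (E : WeierstrassCurve ℚ) (F : Gam) : Pts E →+ Pts E :=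
  DistribSMul.toAddMonoidHom (Pts E) F

theorem smul_nsmul_pts {E : WeierstrassCurve ℚ} (σ : Gam) (n : ℕ) (x : Pts E) :
    σ • (n • x) = n • (σ • x) :=
  map_nsmul (actHom E σ) n x

theorem smul_sub_pts {E : WeierstrassCurve ℚ} (σ : Gam) (x y : Pts E) :
    σ • (x - y) = σ • x - σ • y :=
  map_sub (actHom E σ) x y

/-- One step of the tower. -/
theorem step {p : ℕ} (hp : p.Prime) (H0 : Divisible p) (H1 : Splits p) (H2 : Quotients p)
    (H3 : Rationality p) (F : Gam) (N n : ℕ)
    (h : ∃ (E : WeierstrassCurve ℚ) (_ : E.IsElliptic) (R : Pts E), addOrderOf R = p ^ (n + 1) ∧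
      (∀ σ : Gam, σ • R = R) ∧ Finite (fixedPrim p (actHom E F)) ∧
      Nat.card (fixedPrim p (actHom E F)) ≤ N) :
    ∃ (E : WeierstrassCurve ℚ) (_ : E.IsElliptic) (R : Pts E), addOrderOf R = p ^ (n + 2) ∧
      (∀ σ : Gam, σ • R = R) ∧ Finite (fixedPrim p (actHom E F)) ∧
      Nat.card (fixedPrim p (actHom E F)) ≤ N := by
  obtain ⟨E, hE, R, hR, hfix, hfin, hN⟩ := h
  have hP : addOrderOf (p ^ n • R) = p := by
    rw [addOrderOf_nsmul_of_dvd (pow_ne_zero n hp.ne_zero) (by rw [hR]; exact pow_dvd_pow p n.le_succ),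
      hR, pow_succ, Nat.mul_div_cancel_left _ (pow_pos hp.pos n)]
  have hPfix : ∀ σ : Gam, σ • (p ^ n • R) = p ^ n • R := fun σ => by
    rw [smul_nsmul_pts, hfix]
  obtain ⟨L, hLst, hLcard, hPL, hsum⟩ := H1 E (p ^ n • R) hP hPfix
  obtain ⟨E', hE', φ, hφs, hφe, hφk⟩ := H2 E L hLcard hLst
  obtain ⟨S, hS⟩ := H0 E R
  have hφP : φ (p ^ n • R) ≠ 0 := fun h0 => hPL (hφk ▸ AddMonoidHom.mem_ker.mpr h0)
  have hpP : p • φ (p ^ n • R) = 0 := by
    rw [← map_nsmul]
    have : p • p ^ n • R = 0 := by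
      have := addOrderOf_nsmul_eq_zero (p ^ n • R)
      rwa [hP] at this
    rw [this, map_zero]
  have hφPord : addOrderOf (φ (p ^ n • R)) = p := by
    have : Fact p.Prime := ⟨hp⟩
    exact addOrderOf_eq_prime hpP hφP
  have hφPfix : ∀ σ : Gam, σ • φ (p ^ n • R) = φ (p ^ n • R) := fun σ => by
    rw [← hφe, hPfix]
  have hpow : p ^ (n + 1) • φ S = φ (p ^ n • R) := by
    rw [← map_nsmul, pow_succ, mul_smul, hS]
  have hpow2 : p ^ (n + 2) • φ S = 0 := by
    rw [pow_succ' p (n + 1), mul_smul, hpow, hpP]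
  have hord : addOrderOf (φ S) = p ^ (n + 2) := by
    have : Fact p.Prime := ⟨hp⟩
    refine addOrderOf_eq_prime_pow ?_ hpow2
    rw [hpow]; exact hφP
  have hdiff : ∀ σ : Gam, σ • φ S - φ S ∈ AddSubgroup.zmultiples (φ (p ^ n • R)) := by
    intro σ
    have h1 : p • (σ • S - S) = 0 := by
      rw [nsmul_sub, ← smul_nsmul_pts, hS, hfix, sub_self]
    obtain ⟨a, ha, b, hb, hab⟩ := AddSubgroup.mem_sup.mp (hsum _ h1)
    rw [← hφe, ← map_sub, ← hab, map_add,
      AddMonoidHom.mem_ker.mp (show a ∈ φ.ker by rw [hφk]; exact ha), zero_add]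
    obtain ⟨m, rfl⟩ := AddSubgroup.mem_zmultiples_iff.mp hb
    rw [map_zsmul]
    exact AddSubgroup.mem_zmultiples_iff.mpr ⟨m, rfl⟩
  have hrat := H3 E' (φ (p ^ n • R)) hφPord hφPfix (φ S) ⟨n + 2, hpow2⟩ hdiff
  have : Finite L := Nat.finite_of_card_ne_zero (by rw [hLcard]; exact hp.ne_zero)
  have hker : Finite φ.ker := by rw [hφk]; infer_instance
  have hkk : ∃ k : ℕ, ∀ x ∈ φ.ker, p ^ k • x = 0 := by
    refine ⟨1, fun x hx => ?_⟩
    rw [hφk] at hx
    rw [pow_one, ← hLcard]
    have h1 : Nat.card L • (⟨x, hx⟩ : L) = 0 := card_nsmul_eq_zero'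
    exact congrArg (fun z : L => (z : Pts E)) h1
  obtain ⟨hf, hc⟩ := finite_and_card_le (f := actHom E F) (g := actHom E' F) φ hφs
    (fun x => hφe F x) hker hkk hfin
  exact ⟨E', hE', φ S, hord, hrat, hf, hc.trans hN⟩

/-- **The tower**: rational points of order `p ^ (n + 1)` on curves with boundedly many fixed
points of `p`-power order of a fixed `F`. -/
theorem tower {p : ℕ} (hp : p.Prime) (H0 : Divisible p) (H1 : Splits p) (H2 : Quotients p)
    (H3 : Rationality p) (E : WeierstrassCurve ℚ) [hE : E.IsElliptic] (P : Pts E)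
    (hP : addOrderOf P = p) (hfix : ∀ σ : Gam, σ • P = P) (F : Gam)
    (hF : Finite (fixedPrim p (actHom E F))) (n : ℕ) :
    ∃ (E' : WeierstrassCurve ℚ) (_ : E'.IsElliptic) (R : Pts E'), addOrderOf R = p ^ (n + 1) ∧
      (∀ σ : Gam, σ • R = R) ∧ Finite (fixedPrim p (actHom E' F)) ∧
      Nat.card (fixedPrim p (actHom E' F)) ≤ Nat.card (fixedPrim p (actHom E F)) := by
  induction n with
  | zero => exact ⟨E, hE, P, by rw [hP, zero_add, pow_one], hfix, hF, le_rfl⟩
  | succ n ih => exact step hp H0 H1 H2 H3 F _ n ih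

/-- **The contradiction**: no elliptic curve over `ℚ` has a rational point of order `p`, if (H0),
(H1), (H2), (H3) hold and the fixed points of `p`-power order of some `F` are finite in number
for every curve. -/
theorem false_of_inputs {p : ℕ} (hp : p.Prime) (H0 : Divisible p) (H1 : Splits p)
    (H2 : Quotients p) (H3 : Rationality p) (E : WeierstrassCurve ℚ) [E.IsElliptic] (P : Pts E)
    (hP : addOrderOf P = p) (hfix : ∀ σ : Gam, σ • P = P)
    (H4 : ∃ F : Gam, Finite (fixedPrim p (actHom E F))) : False := by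
  obtain ⟨F, hF⟩ := H4
  obtain ⟨E', hE', R, hR, hRfix, hfin, hle⟩ :=
    tower hp H0 H1 H2 H3 E P hP hfix F hF (Nat.card (fixedPrim p (actHom E F)))
  have hmem : R ∈ fixedPrim p (actHom E' F) :=
    ⟨⟨_, by rw [← hR]; exact addOrderOf_nsmul_eq_zero R⟩, hRfix F⟩
  have h1 : addOrderOf R ≤ Nat.card (fixedPrim p (actHom E' F)) := by
    have : addOrderOf (⟨R, hmem⟩ : fixedPrim p (actHom E' F)) ≤
        Nat.card (fixedPrim p (actHom E' F)) :=
      Nat.le_of_dvd Nat.card_pos (addOrderOf_dvd_natCard _)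
    rwa [AddSubgroup.addOrderOf_mk] at this
  rw [hR] at h1
  have h2 : Nat.card (fixedPrim p (actHom E F)) + 1 <
      p ^ (Nat.card (fixedPrim p (actHom E F)) + 1) :=
    Nat.lt_pow_self hp.one_lt
  omega

end Fermat.Agent.Cor.K1
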