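import Fermat.Agent.Corollaries.K1.Quot
import Fermat.Agent.Corollaries.K1.Tower

/-!
# The input (H2) of the tower
-/

set_option autoImplicit false

namespace Fermat.Agent.Cor.K1

/-- (H2): quotients by Galois stable subgroups of odd prime order. -/
theorem quotients {p : ℕ} (hp : p.Prime) (hp2 : p ≠ 2) : Quotients p :=
  fun E _ L hL hst => Cor.exists_quotient_of_card hp hp2 E L hL hst

end Fermat.Agent.Cor.K1
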