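import Mathlib

/-!
# Additive reduction and points of large prime order: division polynomials at the point

Let `W : y² + a₁xy + a₃y = x³ + a₂x²` over `ℤ` and `P = (0, 0)`. If the reduction modulo `ℓ ≥ 5` is
additive and `P` reduces to a non-singular point, then `P` is not of prime order `p ≥ 11`, for
`ℓ ≠ p` as well as for `ℓ = p`. The values `ψ_n(P)` are an elliptic divisibility sequence whose
initial terms are congruent modulo `ℓ` to those of `n ↦ n w ^ (n² - 1)`; modulo `p²` (for `ℓ = p`)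
the first order deformations of this sequence are known explicitly
(`n ↦ n (n² - 1) (α + β (n² + 6) + γ (n⁴ + n² + 15))`), and vanish modulo `p²` at `n = p`.
-/

set_option autoImplicit false

open Polynomial

namespace Fermat.Agent.Cor.Mazur

section deformation

variable {R : Type*} [CommRing R]

/-- The first order deformation of the sequence `n ↦ n`. -/
def edsG (α β γ : R) (n : ℤ) : R :=
  n * (n ^ 2 - 1) * (α + β * (n ^ 2 + 6) + γ * (n ^ 4 + n ^ 2 + 15))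

/-- The sequence `n ↦ n + ε G(n)`, an elliptic divisibility sequence if `ε² = 0`. -/
def edsF (ε α β γ : R) (n : ℤ) : R := n + ε * edsG α β γ n

lemma dual_mul {ε : R} (h : ε * ε = 0) (a a' b b' : R) :
    (a + ε * a') * (b + ε * b') = a * b + ε * (a * b' + a' * b) := by
  linear_combination (a' * b') * h

variable {ε : R} (h : ε * ε = 0) (α β γ : R)

include h in
lemma edsF_odd (m : ℤ) :
    edsF ε α β γ (m + 2) * (edsF ε α β γ m * edsF ε α β γ m * edsF ε α β γ m) -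
      edsF ε α β γ (m - 1) * (edsF ε α β γ (m + 1) * edsF ε α β γ (m + 1) * edsF ε α β γ (m + 1)) =
    edsF ε α β γ (2 * m + 1) := by
  simp only [edsF]
  simp only [dual_mul h]
  simp only [edsG]
  push_cast
  ring

include h in
lemma edsF_even (m : ℤ) :
    edsF ε α β γ (m - 1) * edsF ε α β γ (m - 1) * (edsF ε α β γ m * edsF ε α β γ (m + 2)) -
      edsF ε α β γ (m - 2) * edsF ε α β γ m * (edsF ε α β γ (m + 1) * edsF ε α β γ (m + 1)) =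
    edsF ε α β γ (2 * m) * edsF ε α β γ 2 := by
  simp only [edsF]
  simp only [dual_mul h]
  simp only [edsG]
  push_cast
  ring

include h in
/-- The elliptic divisibility sequence with the initial values of `w ^ (n² - 1) F(n)`. -/
theorem mul_normEDS_eq {w b c d : R} (hw : IsUnit w) (h2 : IsUnit (edsF ε α β γ 2))
    (hb : b = w ^ 3 * edsF ε α β γ 2) (hc : c = w ^ 8 * edsF ε α β γ 3)
    (hd : d * b = w ^ 15 * edsF ε α β γ 4) (n : ℕ) :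
    w * normEDS b c d n = w ^ (n ^ 2) * edsF ε α β γ n := by
  induction n using normEDSRec with
  | zero => simp [edsF, edsG]
  | one => simp [edsF, edsG]
  | two => rw [Nat.cast_ofNat, normEDS_two, hb]; push_cast; ring
  | three => rw [Nat.cast_ofNat, normEDS_three, hc]; push_cast; ring
  | four => rw [Nat.cast_ofNat, normEDS_four, hd]; push_cast; ring
  | even m h1 h2' h3 h4 h5 =>
    have key := normEDS_even b c d (m + 3 : ℤ)
    have e := edsF_even h α β γ (m + 3 : ℤ)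
    have c1 : ((m + 1 : ℕ) : ℤ) = (m : ℤ) + 3 - 2 := by push_cast; ring
    have c2 : ((m + 2 : ℕ) : ℤ) = (m : ℤ) + 3 - 1 := by push_cast; ring
    have c3 : ((m + 3 : ℕ) : ℤ) = (m : ℤ) + 3 := by push_cast; ring
    have c4 : ((m + 4 : ℕ) : ℤ) = (m : ℤ) + 3 + 1 := by push_cast; ring
    have c5 : ((m + 5 : ℕ) : ℤ) = (m : ℤ) + 3 + 2 := by push_cast; ring
    have c6 : ((2 * (m + 3) : ℕ) : ℤ) = 2 * ((m : ℤ) + 3) := by push_cast; ring
    rw [c1] at h1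
    rw [c2] at h2'
    rw [c3] at h3
    rw [c4] at h4
    rw [c5] at h5
    rw [c6]
    generalize normEDS b c d ((m : ℤ) + 3 - 2) = N1 at *
    generalize normEDS b c d ((m : ℤ) + 3 - 1) = N2 at *
    generalize normEDS b c d ((m : ℤ) + 3) = N3 at *
    generalize normEDS b c d ((m : ℤ) + 3 + 1) = N4 at *
    generalize normEDS b c d ((m : ℤ) + 3 + 2) = N5 at *
    generalize normEDS b c d (2 * ((m : ℤ) + 3)) = N at *
    generalize edsF ε α β γ ((m : ℤ) + 3 - 2) = F1 at *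
    generalize edsF ε α β γ ((m : ℤ) + 3 - 1) = F2 at *
    generalize edsF ε α β γ ((m : ℤ) + 3) = F3 at *
    generalize edsF ε α β γ ((m : ℤ) + 3 + 1) = F4 at *
    generalize edsF ε α β γ ((m : ℤ) + 3 + 2) = F5 at *
    generalize edsF ε α β γ (2 * ((m : ℤ) + 3)) = F at *
    have hu : IsUnit (w ^ 6 * edsF ε α β γ 2) := (hw.pow 6).mul h2
    apply hu.mul_right_cancel
    have k1 : w ^ 4 * (N * b) =
        (w * N2) * (w * N2) * (w * N3) * (w * N5) - (w * N1) * (w * N3) * ((w * N4) * (w * N4)) := by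
      rw [key]; ring
    rw [h1, h2', h3, h4, h5, hb] at k1
    have k2 : w ^ (m + 1) ^ 2 * F1 * (w ^ (m + 3) ^ 2 * F3) * (w ^ (m + 4) ^ 2 * F4 * (w ^ (m + 4) ^ 2 * F4))
        = w ^ ((2 * (m + 3)) ^ 2) * w ^ 6 * (F1 * F3 * (F4 * F4)) := by
      have : (2 * (m + 3)) ^ 2 + 6 = (m + 1) ^ 2 + (m + 3) ^ 2 + (m + 4) ^ 2 + (m + 4) ^ 2 := by ring
      rw [← pow_add, this, pow_add, pow_add, pow_add]; ring
    have k3 : w ^ (m + 2) ^ 2 * F2 * (w ^ (m + 2) ^ 2 * F2) * (w ^ (m + 3) ^ 2 * F3) * (w ^ (m + 5) ^ 2 * F5)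
        = w ^ ((2 * (m + 3)) ^ 2) * w ^ 6 * (F2 * F2 * (F3 * F5)) := by
      have : (2 * (m + 3)) ^ 2 + 6 = (m + 2) ^ 2 + (m + 2) ^ 2 + (m + 3) ^ 2 + (m + 5) ^ 2 := by ring
      rw [← pow_add, this, pow_add, pow_add, pow_add]; ring
    rw [k2, k3] at k1
    linear_combination k1 + w ^ ((2 * (m + 3)) ^ 2) * w ^ 6 * e
  | odd m h1 h2' h3 h4 =>
    have key := normEDS_odd b c d (m + 2 : ℤ)
    have e := edsF_odd h α β γ (m + 2 : ℤ)
    have c1 : ((m + 1 : ℕ) : ℤ) = (m : ℤ) + 2 - 1 := by push_cast; ring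
    have c2 : ((m + 2 : ℕ) : ℤ) = (m : ℤ) + 2 := by push_cast; ring
    have c3 : ((m + 3 : ℕ) : ℤ) = (m : ℤ) + 2 + 1 := by push_cast; ring
    have c4 : ((m + 4 : ℕ) : ℤ) = (m : ℤ) + 2 + 2 := by push_cast; ring
    have c6 : ((2 * (m + 2) + 1 : ℕ) : ℤ) = 2 * ((m : ℤ) + 2) + 1 := by push_cast; ring
    rw [c1] at h1
    rw [c2] at h2'
    rw [c3] at h3
    rw [c4] at h4
    rw [c6]
    generalize normEDS b c d ((m : ℤ) + 2 - 1) = N1 at *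
    generalize normEDS b c d ((m : ℤ) + 2) = N2 at *
    generalize normEDS b c d ((m : ℤ) + 2 + 1) = N3 at *
    generalize normEDS b c d ((m : ℤ) + 2 + 2) = N4 at *
    generalize normEDS b c d (2 * ((m : ℤ) + 2) + 1) = N at *
    generalize edsF ε α β γ ((m : ℤ) + 2 - 1) = F1 at *
    generalize edsF ε α β γ ((m : ℤ) + 2) = F2 at *
    generalize edsF ε α β γ ((m : ℤ) + 2 + 1) = F3 at *
    generalize edsF ε α β γ ((m : ℤ) + 2 + 2) = F4 at *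
    generalize edsF ε α β γ (2 * ((m : ℤ) + 2) + 1) = F at *
    apply (hw.pow 3).mul_right_cancel
    have k1 : w ^ 4 * N =
        (w * N4) * ((w * N2) * (w * N2) * (w * N2)) - (w * N1) * ((w * N3) * (w * N3) * (w * N3)) := by
      rw [key]; ring
    rw [h1, h2', h3, h4] at k1
    have k2 : w ^ (m + 4) ^ 2 * F4 * (w ^ (m + 2) ^ 2 * F2 * (w ^ (m + 2) ^ 2 * F2) * (w ^ (m + 2) ^ 2 * F2))
        = w ^ ((2 * (m + 2) + 1) ^ 2) * w ^ 3 * (F4 * (F2 * F2 * F2)) := by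
      have : (2 * (m + 2) + 1) ^ 2 + 3 = (m + 4) ^ 2 + (m + 2) ^ 2 + (m + 2) ^ 2 + (m + 2) ^ 2 := by ring
      rw [← pow_add, this, pow_add, pow_add, pow_add]; ring
    have k3 : w ^ (m + 1) ^ 2 * F1 * (w ^ (m + 3) ^ 2 * F3 * (w ^ (m + 3) ^ 2 * F3) * (w ^ (m + 3) ^ 2 * F3))
        = w ^ ((2 * (m + 2) + 1) ^ 2) * w ^ 3 * (F1 * (F3 * F3 * F3)) := by
      have : (2 * (m + 2) + 1) ^ 2 + 3 = (m + 1) ^ 2 + (m + 3) ^ 2 + (m + 3) ^ 2 + (m + 3) ^ 2 := by ring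
      rw [← pow_add, this, pow_add, pow_add, pow_add]; ring
    rw [k2, k3] at k1
    linear_combination k1 + w ^ ((2 * (m + 2) + 1) ^ 2) * w ^ 3 * e

end deformation

section field

variable {F : Type*} [Field F]

/-- The cuspidal curves in the normal form: a one-parameter family. -/
lemma exists_param {a₁ a₂ a₃ : F} (h2 : (2 : F) ≠ 0) (h3 : (3 : F) ≠ 0) (ha : a₃ ≠ 0)
    (hc4 : (a₁ ^ 2 + 4 * a₂) ^ 2 - 24 * (a₁ * a₃) = 0)
    (hc6 : -(a₁ ^ 2 + 4 * a₂) ^ 3 + 36 * (a₁ ^ 2 + 4 * a₂) * (a₁ * a₃) - 216 * a₃ ^ 2 = 0) :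
    ∃ w : F, w ≠ 0 ∧ a₁ = 3 * w ∧ 4 * a₂ = 3 * w ^ 2 ∧ a₃ = 2 * w ^ 3 := by
  have h12 : (12 : F) ≠ 0 := by
    have : (12 : F) = 2 * 2 * 3 := by norm_num
    rw [this]; exact mul_ne_zero (mul_ne_zero h2 h2) h3
  obtain ⟨s, hs⟩ : ∃ s : F, a₁ ^ 2 + 4 * a₂ = 12 * s := ⟨(a₁ ^ 2 + 4 * a₂) / 12, by field_simp⟩
  rw [hs] at hc4 hc6
  have e1 : a₁ * a₃ = 6 * s ^ 2 := by
    have : (24 : F) * (a₁ * a₃ - 6 * s ^ 2) = 0 := by linear_combination -hc4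
    rcases mul_eq_zero.mp this with h | h
    · exact absurd h (by
        have : (24 : F) = 2 * 12 := by norm_num
        rw [this]; exact mul_ne_zero h2 h12)
    · exact sub_eq_zero.mp h
  have e2 : a₃ ^ 2 = 4 * s ^ 3 := by
    rw [e1] at hc6
    have : (216 : F) * (a₃ ^ 2 - 4 * s ^ 3) = 0 := by linear_combination -hc6
    rcases mul_eq_zero.mp this with h | h
    · exact absurd h (by
        have : (216 : F) = 12 * 2 * 3 * 3 := by norm_num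
        rw [this]; exact mul_ne_zero (mul_ne_zero (mul_ne_zero h12 h2) h3) h3)
    · exact sub_eq_zero.mp h
  have hs0 : s ≠ 0 := by
    rintro rfl
    apply ha
    have : a₃ ^ 2 = 0 := by rw [e2]; ring
    exact pow_eq_zero_iff (two_ne_zero) |>.mp this
  have hw2 : (a₃ / (2 * s)) ^ 2 = s := by
    field_simp
    rw [e2]; ring
  refine ⟨a₃ / (2 * s), ?_, ?_, ?_, ?_⟩
  · exact div_ne_zero ha (mul_ne_zero h2 hs0)
  · have : a₁ * a₃ = 3 * (a₃ / (2 * s)) * a₃ := by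
      rw [e1]
      field_simp
      rw [e2]; ring
    exact mul_right_cancel₀ ha this
  · have hw1 : a₁ = 3 * (a₃ / (2 * s)) := by
      have : a₁ * a₃ = 3 * (a₃ / (2 * s)) * a₃ := by
        rw [e1]
        field_simp
        rw [e2]; ring
      exact mul_right_cancel₀ ha this
    have h1 : 4 * a₂ = 12 * s - a₁ ^ 2 := by linear_combination hs
    rw [h1, hw2, hw1, mul_pow, hw2]; ring
  · rw [pow_succ, hw2]; field_simp

end field

section curve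

variable {W : WeierstrassCurve ℤ}

lemma map_preΨ'_eval_zero (h4 : W.a₄ = 0) (h6 : W.a₆ = 0) {n : ℕ} (hn : ¬ Even n) {R : Type*}
    [CommRing R] : (((W.preΨ' n).eval 0 : ℤ) : R) =
      normEDS (W.a₃ : R) (W.a₂ * W.a₃ ^ 2) (W.a₃ ^ 3 * (W.a₁ * W.a₂ - W.a₃)) n := by
  rw [normEDS_ofNat, if_neg hn, mul_one, WeierstrassCurve.preΨ']
  have h := map_preNormEDS' (b := W.Ψ₂Sq ^ 2) (c := W.Ψ₃) (d := W.preΨ₄)
    (f := (Int.castRingHom R).comp (evalRingHom 0)) n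
  rw [RingHom.comp_apply, coe_evalRingHom, eq_intCast] at h
  rw [h]
  congr 1
  · rw [map_pow, RingHom.comp_apply, coe_evalRingHom, eq_intCast, WeierstrassCurve.Ψ₂Sq]
    simp only [eval_add, eval_mul, eval_C, eval_pow, eval_X, WeierstrassCurve.b₆, h6]
    push_cast; ring
  · rw [RingHom.comp_apply, coe_evalRingHom, eq_intCast, WeierstrassCurve.Ψ₃]
    simp only [eval_add, eval_mul, eval_C, eval_pow, eval_X, eval_ofNat, WeierstrassCurve.b₈, h6, h4]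
    push_cast; ring
  · rw [RingHom.comp_apply, coe_evalRingHom, eq_intCast, WeierstrassCurve.preΨ₄]
    simp only [eval_add, eval_mul, eval_C, eval_pow, eval_X, eval_ofNat, WeierstrassCurve.b₂,
      WeierstrassCurve.b₄, WeierstrassCurve.b₆, WeierstrassCurve.b₈, h6, h4]
    push_cast; ring

lemma c₄_eq (h4 : W.a₄ = 0) :
    W.c₄ = (W.a₁ ^ 2 + 4 * W.a₂) ^ 2 - 24 * (W.a₁ * W.a₃) := by
  simp only [WeierstrassCurve.c₄, WeierstrassCurve.b₂, WeierstrassCurve.b₄, h4]; ring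

lemma c₆_eq (h4 : W.a₄ = 0) (h6 : W.a₆ = 0) :
    W.c₆ = -(W.a₁ ^ 2 + 4 * W.a₂) ^ 3 + 36 * (W.a₁ ^ 2 + 4 * W.a₂) * (W.a₁ * W.a₃)
      - 216 * W.a₃ ^ 2 := by
  simp only [WeierstrassCurve.c₆, WeierstrassCurve.b₂, WeierstrassCurve.b₄, WeierstrassCurve.b₆,
    h4, h6]; ring

lemma dvd_c₆ {ℓ : ℕ} (hℓ : ℓ.Prime) (hc : (ℓ : ℤ) ∣ W.c₄) (hΔ : (ℓ : ℤ) ∣ W.Δ) :
    (ℓ : ℤ) ∣ W.c₆ := by
  have h1 : (ℓ : ℤ) ∣ W.c₆ ^ 2 := by
    have h2 : W.c₆ ^ 2 = W.c₄ ^ 3 - 1728 * W.Δ := by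
      have := W.c_relation
      linear_combination this
    rw [h2]
    exact dvd_sub (dvd_pow hc (by norm_num)) (Dvd.dvd.mul_left hΔ _)
  exact (Nat.prime_iff_prime_int.mp hℓ).dvd_of_dvd_pow h1

lemma exists_param_zmod (h4 : W.a₄ = 0) (h6 : W.a₆ = 0) {ℓ : ℕ} (hℓ : ℓ.Prime) (hℓ5 : 5 ≤ ℓ)
    (h3 : ¬ (ℓ : ℤ) ∣ W.a₃) (hc : (ℓ : ℤ) ∣ W.c₄) (hΔ : (ℓ : ℤ) ∣ W.Δ) :
    ∃ w : ZMod ℓ, w ≠ 0 ∧ (W.a₁ : ZMod ℓ) = 3 * w ∧ 4 * (W.a₂ : ZMod ℓ) = 3 * w ^ 2 ∧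
      (W.a₃ : ZMod ℓ) = 2 * w ^ 3 := by
  have : Fact ℓ.Prime := ⟨hℓ⟩
  have hne : ∀ k : ℕ, 0 < k → k < 5 → (k : ZMod ℓ) ≠ 0 := by
    intro k hk hk5 h0
    rw [ZMod.natCast_eq_zero_iff] at h0
    exact absurd (Nat.le_of_dvd hk h0) (by omega)
  refine exists_param (by simpa using hne 2 (by norm_num) (by norm_num))
    (by simpa using hne 3 (by norm_num) (by norm_num)) ?_ ?_ ?_
  · rwa [Ne, ZMod.intCast_zmod_eq_zero_iff_dvd]
  · have h1 : ((W.c₄ : ℤ) : ZMod ℓ) = 0 := (ZMod.intCast_zmod_eq_zero_iff_dvd _ _).mpr hc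
    rw [c₄_eq h4] at h1
    push_cast at h1
    exact h1
  · have h1 : ((W.c₆ : ℤ) : ZMod ℓ) = 0 :=
      (ZMod.intCast_zmod_eq_zero_iff_dvd _ _).mpr (dvd_c₆ hℓ hc hΔ)
    rw [c₆_eq h4 h6] at h1
    push_cast at h1
    exact h1

end curve

section square

variable {p : ℕ}

lemma isUnit_natCast_sq (hp : p.Prime) {n : ℕ} (h : ¬ p ∣ n) : IsUnit (n : ZMod (p ^ 2)) := by
  rw [ZMod.isUnit_iff_coprime]
  exact Nat.Coprime.pow_right 2 ((Nat.Prime.coprime_iff_not_dvd hp).mpr h).symm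

lemma exists_natCast_eq (hp : p.Prime) (x : ZMod (p ^ 2)) : ∃ n : ℕ, (n : ZMod (p ^ 2)) = x := by
  have : NeZero (p ^ 2) := ⟨pow_ne_zero 2 hp.ne_zero⟩
  exact ⟨x.val, ZMod.natCast_zmod_val x⟩

lemma isUnit_of_castHom_ne (hp : p.Prime) {x : ZMod (p ^ 2)}
    (h : ZMod.castHom (dvd_pow_self p two_ne_zero) (ZMod p) x ≠ 0) : IsUnit x := by
  obtain ⟨n, rfl⟩ := exists_natCast_eq hp x
  rw [map_natCast, Ne, ZMod.natCast_eq_zero_iff] at h
  exact isUnit_natCast_sq hp h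

lemma exists_eq_mul_of_castHom (hp : p.Prime) {x : ZMod (p ^ 2)}
    (h : ZMod.castHom (dvd_pow_self p two_ne_zero) (ZMod p) x = 0) :
    ∃ y : ZMod (p ^ 2), x = ((p : ℕ) : ZMod (p ^ 2)) * y := by
  obtain ⟨n, rfl⟩ := exists_natCast_eq hp x
  rw [map_natCast, ZMod.natCast_eq_zero_iff] at h
  obtain ⟨m, rfl⟩ := h
  exact ⟨m, by push_cast; ring⟩

end square

/-- **Additive reduction at `ℓ ≥ 5` with non-singular reduction of the point `(0, 0)`**: the point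
is not killed by a prime `p ≥ 11`. The case `ℓ = p` is included. -/
theorem preΨ'_eval_zero_ne {W : WeierstrassCurve ℤ} (h4 : W.a₄ = 0) (h6 : W.a₆ = 0) {p : ℕ}
    (hp : p.Prime) (h11 : 11 ≤ p) {ℓ : ℕ} (hℓ : ℓ.Prime) (hℓ5 : 5 ≤ ℓ) (h3 : ¬ (ℓ : ℤ) ∣ W.a₃)
    (hc : (ℓ : ℤ) ∣ W.c₄) (hΔ : (ℓ : ℤ) ∣ W.Δ) : (W.preΨ' p).eval 0 ≠ 0 := by
  have hodd : ¬ Even p := by
    rw [Nat.not_even_iff_odd]; exact hp.odd_of_ne_two (by omega)
  obtain ⟨w₀, hw₀, e1, e2, e3⟩ := exists_param_zmod h4 h6 hℓ hℓ5 h3 hc hΔ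
  have ec : (W.a₂ : ZMod ℓ) * W.a₃ ^ 2 = 3 * w₀ ^ 8 := by
    rw [e3]; linear_combination w₀ ^ 6 * e2
  have ed : (W.a₃ : ZMod ℓ) ^ 3 * (W.a₁ * W.a₂ - W.a₃) * W.a₃ = 4 * w₀ ^ 15 := by
    rw [e3, e1]; linear_combination 12 * w₀ ^ 13 * e2
  have : Fact ℓ.Prime := ⟨hℓ⟩
  intro h0
  by_cases hpℓ : ℓ = p
  · subst hpℓ
    set φ : ZMod (ℓ ^ 2) →+* ZMod ℓ := ZMod.castHom (dvd_pow_self ℓ two_ne_zero) (ZMod ℓ) with hφ
    have hφi : ∀ n : ℤ, φ (n : ZMod (ℓ ^ 2)) = n := fun n => map_intCast φ n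
    have key := map_preΨ'_eval_zero (W := W) h4 h6 hodd (R := ZMod (ℓ ^ 2))
    rw [h0, Int.cast_zero] at key
    -- the ideal `(ℓ)` has square zero
    have hε : (ℓ : ZMod (ℓ ^ 2)) * (ℓ : ZMod (ℓ ^ 2)) = 0 := by
      have : ((ℓ ^ 2 : ℕ) : ZMod (ℓ ^ 2)) = 0 := ZMod.natCast_self _
      rw [← this]; push_cast; ring
    have hφℓ : φ (ℓ : ZMod (ℓ ^ 2)) = 0 := by rw [map_natCast]; exact ZMod.natCast_self _
    obtain ⟨w, hw⟩ : ∃ w : ZMod (ℓ ^ 2), φ w = w₀ :=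
      ZMod.ringHom_surjective φ w₀
    have huw : IsUnit w := isUnit_of_castHom_ne hp (by
      change φ w ≠ 0
      rw [hw]; exact hw₀)
    have hun : ∀ k : ℕ, ¬ ℓ ∣ k → IsUnit (k : ZMod (ℓ ^ 2)) := fun k hk => isUnit_natCast_sq hp hk
    have hnd : ∀ k : ℕ, 0 < k → k < 11 → ¬ ℓ ∣ k := fun k hk hk' h =>
      absurd (Nat.le_of_dvd hk h) (by omega)
    have hu2 : IsUnit (2 : ZMod (ℓ ^ 2)) := by simpa using hun 2 (hnd 2 (by norm_num) (by norm_num))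
    have hu3 : IsUnit (3 : ZMod (ℓ ^ 2)) := by simpa using hun 3 (hnd 3 (by norm_num) (by norm_num))
    have hu5 : IsUnit (5 : ZMod (ℓ ^ 2)) := by simpa using hun 5 (hnd 5 (by norm_num) (by norm_num))
    have hu7 : IsUnit (7 : ZMod (ℓ ^ 2)) := by simpa using hun 7 (hnd 7 (by norm_num) (by norm_num))
    -- the initial values
    obtain ⟨xb, hxb⟩ : ∃ y : ZMod (ℓ ^ 2), ((W.a₃ : ℤ) : ZMod (ℓ ^ 2)) - 2 * w ^ 3 =
        ((ℓ : ℕ) : ZMod (ℓ ^ 2)) * y := by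
      apply exists_eq_mul_of_castHom hp
      change φ _ = 0
      simp only [map_sub, map_mul, map_pow, hφi, map_ofNat, hw]
      rw [e3]; ring
    obtain ⟨xc, hxc⟩ : ∃ y : ZMod (ℓ ^ 2), ((W.a₂ : ℤ) : ZMod (ℓ ^ 2)) * ((W.a₃ : ℤ) : ZMod (ℓ ^ 2)) ^ 2 -
        3 * w ^ 8 = ((ℓ : ℕ) : ZMod (ℓ ^ 2)) * y := by
      apply exists_eq_mul_of_castHom hp
      change φ _ = 0
      simp only [map_sub, map_mul, map_pow, hφi, map_ofNat, hw]
      rw [ec]; ring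
    obtain ⟨xd, hxd⟩ : ∃ y : ZMod (ℓ ^ 2), ((W.a₃ : ℤ) : ZMod (ℓ ^ 2)) ^ 3 *
        (((W.a₁ : ℤ) : ZMod (ℓ ^ 2)) * ((W.a₂ : ℤ) : ZMod (ℓ ^ 2)) - ((W.a₃ : ℤ) : ZMod (ℓ ^ 2))) *
        ((W.a₃ : ℤ) : ZMod (ℓ ^ 2)) - 4 * w ^ 15 = ((ℓ : ℕ) : ZMod (ℓ ^ 2)) * y := by
      apply exists_eq_mul_of_castHom hp
      change φ _ = 0
      simp only [map_sub, map_mul, map_pow, hφi, map_ofNat, hw]
      rw [ed]; ring
    -- the parameters of the deformation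
    have hdiv : ∀ k r : ZMod (ℓ ^ 2), IsUnit k → ∃ x, k * x = r := by
      rintro k r ⟨u, rfl⟩
      exact ⟨(u⁻¹ : (ZMod (ℓ ^ 2))ˣ) * r, by rw [← mul_assoc, Units.mul_inv, one_mul]⟩
    obtain ⟨r1, hr1⟩ := hdiv (6 * w ^ 3) xb (by
      have : (6 : ZMod (ℓ ^ 2)) = 2 * 3 := by norm_num
      rw [this]; exact (hu2.mul hu3).mul (huw.pow 3))
    obtain ⟨r2, hr2⟩ := hdiv (24 * w ^ 8) xc (by
      have : (24 : ZMod (ℓ ^ 2)) = 2 * 2 * 2 * 3 := by norm_num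
      rw [this]; exact (((hu2.mul hu2).mul hu2).mul hu3).mul (huw.pow 8))
    obtain ⟨r3, hr3⟩ := hdiv (60 * w ^ 15) xd (by
      have : (60 : ZMod (ℓ ^ 2)) = 2 * 2 * 3 * 5 := by norm_num
      rw [this]; exact (((hu2.mul hu2).mul hu3).mul hu5).mul (huw.pow 15))
    obtain ⟨γ, hγ⟩ := hdiv 420 (5 * (r3 - r1) - 12 * (r2 - r1)) (by
      have : (420 : ZMod (ℓ ^ 2)) = 2 * 2 * 3 * 5 * 7 := by norm_num
      rw [this]; exact (((hu2.mul hu2).mul hu3).mul hu5).mul hu7)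
    obtain ⟨β, hβ⟩ := hdiv 5 (r2 - r1 - 70 * γ) hu5
    obtain ⟨α, hα⟩ : ∃ α : ZMod (ℓ ^ 2), α = r1 - 10 * β - 35 * γ := ⟨_, rfl⟩
    have f1 : α + 10 * β + 35 * γ = r1 := by rw [hα]; ring
    have f2 : α + 15 * β + 105 * γ = r2 := by linear_combination f1 + hβ
    have f3 : α + 22 * β + 287 * γ = r3 := by
      apply hu5.mul_left_cancel
      linear_combination 5 * f1 + 12 * hβ + hγ
    have F2 : edsF (ℓ : ZMod (ℓ ^ 2)) α β γ 2 = 2 + ℓ * (6 * r1) := by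
      simp only [edsF, edsG]; push_cast; linear_combination (ℓ : ZMod (ℓ ^ 2)) * 6 * f1
    have F3 : edsF (ℓ : ZMod (ℓ ^ 2)) α β γ 3 = 3 + ℓ * (24 * r2) := by
      simp only [edsF, edsG]; push_cast; linear_combination (ℓ : ZMod (ℓ ^ 2)) * 24 * f2
    have F4 : edsF (ℓ : ZMod (ℓ ^ 2)) α β γ 4 = 4 + ℓ * (60 * r3) := by
      simp only [edsF, edsG]; push_cast; linear_combination (ℓ : ZMod (ℓ ^ 2)) * 60 * f3
    have main := mul_normEDS_eq hε α β γ huw (b := (W.a₃ : ZMod (ℓ ^ 2))) (c := W.a₂ * W.a₃ ^ 2)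
      (d := W.a₃ ^ 3 * (W.a₁ * W.a₂ - W.a₃)) (by
        rw [F2]
        apply isUnit_of_castHom_ne hp
        change φ _ ≠ 0
        rw [map_add, map_mul, hφℓ, zero_mul, add_zero, map_ofNat]
        have : ((2 : ℕ) : ZMod ℓ) ≠ 0 := by
          rw [Ne, ZMod.natCast_eq_zero_iff]; exact hnd 2 (by norm_num) (by norm_num)
        exact_mod_cast this)
      (by rw [F2]; linear_combination hxb - (ℓ : ZMod (ℓ ^ 2)) * hr1)
      (by rw [F3]; linear_combination hxc - (ℓ : ZMod (ℓ ^ 2)) * hr2)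
      (by rw [F4]; linear_combination hxd - (ℓ : ZMod (ℓ ^ 2)) * hr3) ℓ
    rw [← key, mul_zero] at main
    have hF : edsF (ℓ : ZMod (ℓ ^ 2)) α β γ (ℓ : ℕ) = ℓ := by
      simp only [edsF, edsG]
      push_cast
      linear_combination (((ℓ : ZMod (ℓ ^ 2)) ^ 2 - 1) * (α + β * ((ℓ : ZMod (ℓ ^ 2)) ^ 2 + 6) +
        γ * ((ℓ : ZMod (ℓ ^ 2)) ^ 4 + (ℓ : ZMod (ℓ ^ 2)) ^ 2 + 15))) * hε
    rw [hF] at main
    have h5 : (ℓ : ZMod (ℓ ^ 2)) = 0 := by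
      apply (huw.pow (ℓ ^ 2)).mul_left_cancel
      rw [← main, mul_zero]
    rw [ZMod.natCast_eq_zero_iff] at h5
    have h6' := Nat.le_of_dvd hp.pos h5
    nlinarith [hp.two_le]
  · have key := map_preΨ'_eval_zero (W := W) h4 h6 hodd (R := ZMod ℓ)
    rw [h0, Int.cast_zero] at key
    have hF : ∀ n : ℤ, edsF (0 : ZMod ℓ) 0 0 0 n = n := fun n => by simp [edsF]
    have h2' : (2 : ZMod ℓ) ≠ 0 := by
      have : ((2 : ℕ) : ZMod ℓ) ≠ 0 := by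
        rw [Ne, ZMod.natCast_eq_zero_iff]
        exact fun h => absurd (Nat.le_of_dvd (by norm_num) h) (by omega)
      exact_mod_cast this
    have main := mul_normEDS_eq (ε := (0 : ZMod ℓ)) (mul_zero 0) 0 0 0 (w := w₀)
      (IsUnit.mk0 _ hw₀) (b := (W.a₃ : ZMod ℓ)) (c := W.a₂ * W.a₃ ^ 2)
      (d := W.a₃ ^ 3 * (W.a₁ * W.a₂ - W.a₃))
      (by rw [hF]; exact IsUnit.mk0 _ (by exact_mod_cast h2'))
      (by rw [hF, e3]; push_cast; ring)
      (by rw [hF, ec]; push_cast; ring)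
      (by rw [hF, ed]; push_cast; ring) p
    rw [← key, mul_zero, hF] at main
    have h5 : ((p : ℕ) : ZMod ℓ) = 0 := by
      rcases mul_eq_zero.mp main.symm with h | h
      · exact absurd h (pow_ne_zero _ hw₀)
      · exact_mod_cast h
    rw [ZMod.natCast_eq_zero_iff] at h5
    exact hpℓ ((Nat.prime_dvd_prime_iff_eq hℓ hp).mp h5)

end Fermat.Agent.Cor.Mazur
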