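import Fermat.Agent.Corollaries.K1.QuotAlg
import Fermat.Agent.Isog.FreyData

/-!
# The quotient of an elliptic curve over `ℚ` by a Galois stable finite subgroup of odd order

For an elliptic curve `E` over `ℚ` and a finite Galois stable subgroup `N` of odd order of
`E(ℚ̄)` there are an elliptic curve `E'` over `ℚ` and a surjective Galois equivariant homomorphism
`E(ℚ̄) → E'(ℚ̄)` with kernel `N`.
-/

set_option autoImplicit false

namespace Fermat.Agent.Cor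

open WeierstrassCurve WeierstrassCurve.Affine WeierstrassCurve.Affine.Point
open Fermat.Agent.Isog
open Fermat.Agent.Moduli (dd)
open Fermat.Agent.S15x (exists_split)

local notation "ℚbar" => AlgebraicClosure ℚ

section galois

variable {E : WeierstrassCurve ℚ} {N : AddSubgroup (E⁄ℚbar).Point} [Fintype N] [DecidableEq N]

theorem map_kap_of_stable (hN : ∀ σ : ℚbar ≃ₐ[ℚ] ℚbar, ∀ S ∈ N, σ • S ∈ N) (σ : ℚbar ≃ₐ[ℚ] ℚbar)
    (e : ℚbar) : σ (kap N e) = kap N (σ e) := by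
  rw [kap, kap, map_prod]
  refine Finset.prod_bij (fun P _ => permN hN σ P) ?_ ?_ ?_ ?_
  · intro P hP
    exact (permN_mem_nz hN σ P).mpr hP
  · intro x _ y _ h
    exact (permN hN σ).injective h
  · intro P hP
    exact ⟨(permN hN σ).symm P, by rw [← permN_mem_nz hN σ]; simpa using hP, by simp⟩
  · intro P _
    rw [coe_permN, xc_smul, map_sub]

theorem map_dd_of_stable (hN : ∀ σ : ℚbar ≃ₐ[ℚ] ℚbar, ∀ S ∈ N, σ • S ∈ N) (σ : ℚbar ≃ₐ[ℚ] ℚbar)
    (e e' e'' : ℚbar) : σ (dd N e e' e'') = dd N (σ e) (σ e') (σ e'') := by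
  unfold dd
  rw [map_div₀, map_mul, map_mul, map_pow, map_sub, map_kap_of_stable hN,
    map_kap_of_stable hN, map_kap_of_stable hN]

theorem map_rt_of_stable (hN : ∀ σ : ℚbar ≃ₐ[ℚ] ℚbar, ∀ S ∈ N, σ • S ∈ N) (σ : ℚbar ≃ₐ[ℚ] ℚbar)
    (e e' e'' : ℚbar) : σ (rt N e e' e'') = rt N (σ e) (σ e') (σ e'') := by
  unfold rt
  rw [map_div₀, _root_.map_neg, map_add, map_dd_of_stable hN, map_dd_of_stable hN, map_ofNat]

theorem map_fN_of_stable (hN : ∀ σ : ℚbar ≃ₐ[ℚ] ℚbar, ∀ S ∈ N, σ • S ∈ N) (σ : ℚbar ≃ₐ[ℚ] ℚbar)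
    (e : ℚbar) (P : (E⁄ℚbar).Point) : σ (fN N e P) = fN N (σ e) (σ • P) := by
  rw [fN, fN, map_div₀, map_kap_of_stable hN, map_prod]
  congr 1
  refine Fintype.prod_equiv (permN hN σ) _ _ fun P' => ?_
  rw [coe_permN, ← smul_add, xc_smul, map_sub]

theorem split_map_rat (σ : ℚbar ≃ₐ[ℚ] ℚbar) {e e' e'' : ℚbar} (hs : Split (E⁄ℚbar) e e' e'') :
    Split (E⁄ℚbar) (σ e) (σ e') (σ e'') := by
  have b2 : (E⁄ℚbar).b₂ = algebraMap ℚ ℚbar E.b₂ := WeierstrassCurve.map_b₂ E _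
  have b4 : (E⁄ℚbar).b₄ = algebraMap ℚ ℚbar E.b₄ := WeierstrassCurve.map_b₄ E _
  have b6 : (E⁄ℚbar).b₆ = algebraMap ℚ ℚbar E.b₆ := WeierstrassCurve.map_b₆ E _
  have h4 : σ (4 : ℚbar) = 4 := map_ofNat σ 4
  have h2 : σ (2 : ℚbar) = 2 := map_ofNat σ 2
  refine ⟨?_, ?_, ?_, σ.injective.ne hs.ne₁, σ.injective.ne hs.ne₂, σ.injective.ne hs.ne₃,
    hs.two⟩
  · have h := congrArg σ hs.b₂
    rw [b2, σ.commutes, ← b2] at h
    rw [h]
    simp only [map_mul, map_add, _root_.map_neg, h4]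
  · have h := congrArg σ hs.b₄
    rw [b4, σ.commutes, ← b4] at h
    rw [h]
    simp only [map_mul, map_add, h2]
  · have h := congrArg σ hs.b₆
    rw [b6, σ.commutes, ← b6] at h
    rw [h]
    simp only [map_mul, _root_.map_neg, h4]

theorem A4_rational (hN : ∀ σ : ℚbar ≃ₐ[ℚ] ℚbar, ∀ S ∈ N, σ • S ∈ N) {e e' e'' : ℚbar}
    (hs : Split (E⁄ℚbar) e e' e'') : ∃ q : ℚ, algebraMap ℚ ℚbar q = A4 N e e' e'' := by
  refine exists_rat_of_fixed fun σ => ?_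
  refine Eq.trans ?_ (A4_eq_of_split hs (split_map_rat σ hs))
  unfold A4
  simp only [map_add, map_mul, map_rt_of_stable hN]

theorem A6_rational (hN : ∀ σ : ℚbar ≃ₐ[ℚ] ℚbar, ∀ S ∈ N, σ • S ∈ N) {e e' e'' : ℚbar}
    (hs : Split (E⁄ℚbar) e e' e'') : ∃ q : ℚ, algebraMap ℚ ℚbar q = A6 N e e' e'' := by
  refine exists_rat_of_fixed fun σ => ?_
  refine Eq.trans ?_ (A6_eq_of_split hs (split_map_rat σ hs))
  unfold A6
  simp only [_root_.map_neg, map_mul, map_rt_of_stable hN]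

theorem map_XX_of_stable (hN : ∀ σ : ℚbar ≃ₐ[ℚ] ℚbar, ∀ S ∈ N, σ • S ∈ N)
    (hodd : Odd (Fintype.card N)) (σ : ℚbar ≃ₐ[ℚ] ℚbar) {e e' e'' : ℚbar}
    (hs : Split (E⁄ℚbar) e e' e'') {P : (E⁄ℚbar).Point} (hP : σ • P ∉ N) :
    σ (XX N e e' e'' P) = XX N e e' e'' (σ • P) := by
  rw [← XX_eq_of_split hs hodd (by norm_num) hP (split_map_rat σ hs)]
  unfold XX
  rw [map_add, map_rt_of_stable hN, map_fN_of_stable hN]

end galois

/-- **The quotient by a Galois stable finite subgroup of odd order.** -/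
theorem exists_quotient (E : WeierstrassCurve ℚ) (hΔ : E.Δ ≠ 0)
    (N : AddSubgroup (E⁄(AlgebraicClosure ℚ)).Point) [Finite N] (hodd : Odd (Nat.card N))
    (hN : ∀ σ : AlgebraicClosure ℚ ≃ₐ[ℚ] AlgebraicClosure ℚ, ∀ S ∈ N, σ • S ∈ N) :
    ∃ E' : WeierstrassCurve ℚ, E'.Δ ≠ 0 ∧
      ∃ φ : (E⁄(AlgebraicClosure ℚ)).Point →+ (E'⁄(AlgebraicClosure ℚ)).Point,
        (∀ (σ : AlgebraicClosure ℚ ≃ₐ[ℚ] AlgebraicClosure ℚ) (x), φ (σ • x) = σ • φ x) ∧
        φ.ker = N ∧ Function.Surjective φ := by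
  classical
  have hFin : Fintype N := Fintype.ofFinite N
  rw [Nat.card_eq_fintype_card] at hodd
  have hΔ' : (E⁄ℚbar).Δ ≠ 0 := by
    have h : (E⁄ℚbar).Δ = algebraMap ℚ ℚbar E.Δ := WeierstrassCurve.map_Δ E _
    rw [h]
    exact (map_ne_zero _).mpr hΔ
  obtain ⟨e, e', e'', hs⟩ := exists_split (F := ℚbar) (W := E⁄ℚbar) two_ne_zero hΔ'
  obtain ⟨q₄, hq₄⟩ := A4_rational hN hs
  obtain ⟨q₆, hq₆⟩ := A6_rational hN hs
  set E' : WeierstrassCurve ℚ := ⟨0, 0, 0, q₄, q₆⟩ with hE'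
  have t : Target N (E'⁄ℚbar) e e' e'' (rt N e e' e'') (rt N e' e'' e) (rt N e'' e e') 1 :=
    target_of hs hodd (by norm_num) (_root_.map_zero (algebraMap ℚ ℚbar))
      (_root_.map_zero (algebraMap ℚ ℚbar)) (_root_.map_zero (algebraMap ℚ ℚbar)) hq₄ hq₆
  refine ⟨E', ?_, t.hom, ?_, t.ker_hom, surjective_hom t⟩
  · intro h
    have h1 : (E'⁄ℚbar).Δ = 0 := by
      have h2 : (E'⁄ℚbar).Δ = algebraMap ℚ ℚbar E'.Δ := WeierstrassCurve.map_Δ E' _
      rw [h2, h, _root_.map_zero]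
    have h3 := S15x.split_Δ t.tgt
    rw [h1] at h3
    have h16 : (16 : ℚbar) ≠ 0 := by norm_num
    exact mul_ne_zero h16 (pow_ne_zero 2 (mul_ne_zero (mul_ne_zero
      (sub_ne_zero.mpr t.tgt.ne₁) (sub_ne_zero.mpr t.tgt.ne₂)) (sub_ne_zero.mpr t.tgt.ne₃)))
      h3.symm
  · intro σ P
    rw [t.hom_apply, t.hom_apply]
    by_cases hP : P ∈ N
    · rw [t.phi_of_mem hP, t.phi_of_mem (hN σ P hP)]
      exact (smul_zero (A := (E'⁄ℚbar).Point) σ).symm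
    · have hP' : σ • P ∉ N := fun h => hP (by
        have := hN σ⁻¹ _ h
        rwa [inv_smul_smul] at this)
      symm
      refine t.eq_phi hP' ?_ ?_ ?_
      · intro h
        apply t.phi_ne hP
        rw [← smul_zero σ] at h
        exact smul_left_cancel σ h
      · have h1 := map_XX_of_stable hN hodd σ hs hP'
        unfold XX at h1
        rw [xc_smul, t.xc_phi hP, one_pow, one_mul, one_mul]
        exact h1
      · rw [eta_smul, t.eta_phi hP, etaN_galois hN σ, one_pow, one_mul, one_mul]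

/-- the same for curves in `IsElliptic` form and subgroups of odd prime order. -/
theorem exists_quotient_of_card {p : ℕ} (hp : p.Prime) (hp2 : p ≠ 2) (E : WeierstrassCurve ℚ)
    [E.IsElliptic] (L : AddSubgroup (E⁄(AlgebraicClosure ℚ)).Point) (hL : Nat.card L = p)
    (hst : ∀ σ : AlgebraicClosure ℚ ≃ₐ[ℚ] AlgebraicClosure ℚ, ∀ x ∈ L, σ • x ∈ L) :
    ∃ (E' : WeierstrassCurve ℚ) (_ : E'.IsElliptic)
      (φ : (E⁄(AlgebraicClosure ℚ)).Point →+ (E'⁄(AlgebraicClosure ℚ)).Point),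
      Function.Surjective φ ∧
      (∀ (σ : AlgebraicClosure ℚ ≃ₐ[ℚ] AlgebraicClosure ℚ) (x), φ (σ • x) = σ • φ x) ∧
      φ.ker = L := by
  have : Finite L := Nat.finite_of_card_ne_zero (by rw [hL]; exact hp.ne_zero)
  obtain ⟨E', hE', φ, h1, h2, h3⟩ := exists_quotient E E.isUnit_Δ.ne_zero L
    (by rw [hL]; exact hp.odd_of_ne_two hp2) hst
  exact ⟨E', ⟨isUnit_iff_ne_zero.mpr hE'⟩, φ, h3, h1, h2⟩

end Fermat.Agent.Cor
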