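import Fermat.Agent.Minkowski.Trivial
import Fermat.Agent.EC.MultInertia
import Fermat.Agent.S12.AtP

/-!
# A point whose conjugates differ from it by multiples of a rational point of order `p`

`W` is a semistable model over `ℤ`, `P` a rational point of odd prime order `p` which lies outside
the identity component at every prime dividing the discriminant.  If `x` is a point of `p`-power
order and `σ x - x ∈ ⟨P⟩` for all `σ`, then `σ ↦ σ x - x` is a homomorphism from the absolute
Galois group of `ℚ` to `ℤ/p` which is unramified everywhere: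

* at a bad prime, an element `σ` of the inertia group satisfies `σ x - x ∈ E₀` or
  `σ x + x ∈ E₀`, and the same for `σ ^ 2`, while `⟨P⟩ ∩ E₀ = 0`;
* at a good prime different from `p`, inertia acts trivially on the points of `p`-power order;
* at `p`, if the reduction is good, `σ x - x` is in the kernel of reduction, which contains no
  rational point of order `p`.

So it is trivial by Minkowski's theorem: `x` is rational.
-/

set_option autoImplicit false

open WeierstrassCurve WeierstrassCurve.Affine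

namespace Fermat.Agent.Cor.K1

open Fermat.Agent.ECRed Fermat.Agent.Minkowski FermatAgent.ECVal

local notation "GQ" => (AlgebraicClosure ℚ ≃ₐ[ℚ] AlgebraicClosure ℚ)

/-! ### Points of prime order and subgroups -/

/-- If `p P = 0` with `p` prime and `m P ≠ 0`, a subgroup containing `m P` contains `P`. -/
theorem mem_of_zsmul_mem {A : Type*} [AddCommGroup A] {p : ℕ} (hp : p.Prime) {P : A}
    (hP : p • P = 0) {m : ℤ} (hm : m • P ≠ 0) {B : AddSubgroup A} (h : m • P ∈ B) : P ∈ B := by
  have hpP : (p : ℤ) • P = 0 := by rw [natCast_zsmul]; exact hP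
  have hnd : ¬ (p : ℤ) ∣ m := by
    rintro ⟨c, rfl⟩
    exact hm (by rw [mul_comm, mul_smul, hpP, smul_zero])
  have hco : IsCoprime (p : ℤ) m :=
    (Int.prime_iff_natAbs_prime.mpr (by simpa using hp)).coprime_iff_not_dvd.mpr hnd
  obtain ⟨a, b, hab⟩ := hco
  have h1 : P = b • (m • P) := by
    have h2 : (a * (p : ℤ) + b * m) • P = P := by rw [hab, one_smul]
    rw [add_smul, mul_smul, hpP, smul_zero, zero_add, mul_smul] at h2
    exact h2.symm
  rw [h1]
  exact B.zsmul_mem h b

theorem nsmul_zsmul_eq_zero {A : Type*} [AddCommGroup A] {p : ℕ} {P : A} (hP : p • P = 0)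
    (m : ℤ) : p • (m • P) = 0 := by
  rw [← natCast_zsmul, smul_comm, natCast_zsmul, hP, smul_zero]

theorem two_mul_zsmul {A : Type*} [AddCommGroup A] (m : ℤ) (P : A) :
    m • P + m • P = (2 * m) • P := by
  rw [two_mul, add_smul]

theorem two_zsmul_zsmul {A : Type*} [AddCommGroup A] (m : ℤ) (P : A) :
    (2 : ℤ) • (m • P) = (2 * m) • P := by
  rw [← mul_smul]

theorem eq_zero_of_two_zsmul {A : Type*} [AddCommGroup A] {p : ℕ} (hodd : Odd p) {y : A}
    (h2 : (2 : ℤ) • y = 0) (hp : p • y = 0) : y = 0 := by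
  obtain ⟨k, rfl⟩ := hodd
  have h3 : (2 : ℕ) • y = 0 := by
    rw [← natCast_zsmul]; exact h2
  rw [add_smul, mul_smul, smul_comm, h3, smul_zero, zero_add, one_smul] at hp
  exact hp

/-- The stabilizer of a point is open. -/
theorem isOpen_stabilizer_pt {W : WeierstrassCurve ℚ} (x : (W⁄(AlgebraicClosure ℚ)).Point) :
    IsOpen (MulAction.stabilizer GQ x : Set GQ) := by
  rcases x with _ | ⟨a, b, h⟩
  · have : (MulAction.stabilizer GQ (Point.zero : (W⁄(AlgebraicClosure ℚ)).Point)) = ⊤ := by
      rw [eq_top_iff]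
      intro σ _
      exact smul_zero (A := (W⁄(AlgebraicClosure ℚ)).Point) σ
    rw [this]
    exact isOpen_univ
  · have ha := stabilizer_isOpen_of_isIntegral (K := ℚ) (L := AlgebraicClosure ℚ) a
    have hb := stabilizer_isOpen_of_isIntegral (K := ℚ) (L := AlgebraicClosure ℚ) b
    have hle : MulAction.stabilizer GQ a ⊓ MulAction.stabilizer GQ b ≤
        MulAction.stabilizer GQ (Point.some a b h) := by
      rintro σ ⟨h1, h2⟩
      have h1' : σ a = a := h1
      have h2' : σ b = b := h2
      rw [MulAction.mem_stabilizer_iff]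
      refine point_ext ((smul_ne_zero_iff' σ _).mpr (Point.some_ne_zero _))
        (Point.some_ne_zero _) ?_ ?_
      · rw [xc_smul]; exact h1'
      · rw [yc_smul]; exact h2'
    exact Subgroup.isOpen_mono hle (ha.inter hb)

section

variable {W : WeierstrassCurve ℤ} {p : ℕ} {P x : (EQ W).Point}

theorem smul_mul_sub (hfix : ∀ σ : GQ, σ • P = P)
    (hd : ∀ σ : GQ, σ • x - x ∈ AddSubgroup.zmultiples P) (σ τ : GQ) :
    (σ * τ) • x - x = (σ • x - x) + (τ • x - x) := by
  have h1 : σ • (τ • x - x) = τ • x - x := by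
    obtain ⟨m, hm⟩ := AddSubgroup.mem_zmultiples_iff.mp (hd τ)
    rw [← hm, Point.algEquiv_smul_zsmul, hfix]
  have h2 : σ • (τ • x - x) = (σ * τ) • x - σ • x := by
    rw [smul_sub, mul_smul]
  rw [h1] at h2
  rw [h2]
  abel

/-- The homomorphism `σ ↦ σ x - x`. -/
noncomputable def diffHom (hfix : ∀ σ : GQ, σ • P = P)
    (hd : ∀ σ : GQ, σ • x - x ∈ AddSubgroup.zmultiples P) :
    GQ →* Multiplicative (EQ W).Point where
  toFun σ := Multiplicative.ofAdd (σ • x - x)
  map_one' := by rw [one_smul, sub_self]; rfl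
  map_mul' σ τ := by rw [smul_mul_sub hfix hd, ofAdd_add]

theorem diffHom_eq_one_iff (hfix : ∀ σ : GQ, σ • P = P)
    (hd : ∀ σ : GQ, σ • x - x ∈ AddSubgroup.zmultiples P) (σ : GQ) :
    diffHom hfix hd σ = 1 ↔ σ • x = x :=
  ⟨fun h => sub_eq_zero.mp h, fun h => by
    change Multiplicative.ofAdd (σ • x - x) = 1
    rw [h, sub_self]; rfl⟩

/-- **Rationality of a point whose conjugates differ from it by multiples of `P`.** -/
theorem smul_eq_of_mem_zmultiples (hΔ : W.Δ ≠ 0) (hss : W.IsSemistableModel) (hp : p.Prime)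
    (hp2 : p ≠ 2) (hP : addOrderOf P = p) (hfix : ∀ σ : GQ, σ • P = P)
    (hcomp : ∀ ℓ : ℕ, ℓ.Prime → (ℓ : ℤ) ∣ W.Δ → ∀ A : ValuationSubring (AlgebraicClosure ℚ),
      A.LiesOverPrime ℓ → ¬ W.InZeroComponentAt A P)
    (hx : ∃ k : ℕ, p ^ k • x = 0)
    (hd : ∀ σ : GQ, σ • x - x ∈ AddSubgroup.zmultiples P) (σ : GQ) : σ • x = x := by
  classical
  have hpP : p • P = 0 := by rw [← hP]; exact addOrderOf_nsmul_eq_zero P
  rw [← diffHom_eq_one_iff hfix hd]
  refine hom_eq_one (diffHom hfix hd) ?_ ?_ σ
  · -- the kernel is open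
    have hker : (diffHom hfix hd).ker = MulAction.stabilizer GQ x := by
      ext τ
      rw [MonoidHom.mem_ker, diffHom_eq_one_iff, MulAction.mem_stabilizer_iff]
    rw [hker]
    exact isOpen_stabilizer_pt x
  intro ℓ hℓ A hA τ hτ
  rw [diffHom_eq_one_iff]
  obtain ⟨m, hm⟩ := AddSubgroup.mem_zmultiples_iff.mp (hd τ)
  have hyfix : ∀ σ : GQ, σ • (τ • x - x) = τ • x - x := fun σ => by
    rw [← hm, Point.algEquiv_smul_zsmul, hfix]
  have hpy : p • (τ • x - x) = 0 := by
    rw [← hm]
    exact nsmul_zsmul_eq_zero hpP m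
  by_cases hbad : (ℓ : ℤ) ∣ W.Δ
  · -- multiplicative reduction
    have hW : IsMultAt W ℓ := ⟨hℓ, hbad, hss ℓ hℓ hbad, hΔ⟩
    have hPE0 : P ∉ E0 (redEk W A) (isPlace_valuationSubring A) := fun h =>
      hcomp ℓ hℓ hbad A hA ((inZeroComponentAt_iff W A P).mpr h)
    have hkey : ∀ n : ℤ, n • P ∈ E0 (redEk W A) (isPlace_valuationSubring A) → n • P = 0 := by
      intro n hn
      by_contra h0
      exact hPE0 (mem_of_zsmul_mem hp hpP h0 hn)
    have hτD := mem_decomposition_of_mem_inertia hτ
    suffices h : τ • x - x = 0 from sub_eq_zero.mp h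
    rcases smul_sub_or_add_mem_E0 hW hA hτD x with h1 | h1
    · rw [← hm] at h1 ⊢
      exact hkey m h1
    · have hsq : (τ * τ) • x - x = (2 * m) • P := by
        rw [smul_mul_sub hfix hd, ← hm]
        exact two_mul_zsmul m P
      rcases smul_sub_or_add_mem_E0 hW hA ((A.decompositionSubgroup ℚ).mul_mem hτD hτD) x with
        h2 | h2
      · rw [hsq] at h2
        have h3 := hkey _ h2
        -- `2 y = 0` and `p y = 0`, `p` odd
        have h4 : (2 : ℤ) • (τ • x - x) = 0 := by
          rw [← hm]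
          exact (two_zsmul_zsmul m P).trans h3
        exact eq_zero_of_two_zsmul (hp.odd_of_ne_two hp2) h4 hpy
      · have h3 := AddSubgroup.sub_mem _ h2 h1
        have h4 : (τ * τ) • x + x - (τ • x + x) = m • P := by
          have h5 : τ • (τ • x - x) = (τ * τ) • x - τ • x := by rw [smul_sub, mul_smul]
          rw [hyfix, ← hm] at h5
          rw [h5]; abel
        rw [h4] at h3
        rw [← hm]
        exact hkey m h3
  · have hΔ' : (Ek W A).Δ ≠ 0 := by
      have h1 : ¬ A.valuation ((W.Δ : ℤ) : AlgebraicClosure ℚ) < 1 := by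
        rw [val_intCast_eq_one A.valuation hℓ (lt_one_of_liesOver hA) hbad]
        exact lt_irrefl _
      intro h0
      apply h1
      have h2 := (redEk W A).Δ
      rw [h0, EQ_Δ] at h2
      exact (isPlace_valuationSubring A).lt_one h2
    by_cases hℓp : ℓ = p
    · -- good reduction at `p`
      subst hℓp
      obtain ⟨Q, hQ⟩ := exists_isRed_of_Δ_ne_zero (redEk W A) (isPlace_valuationSubring A) hΔ' x
      have h1 := isRed_smul_sub (W' := W.map (Int.castRingHom ℚ)) hτ (redEk W A) hQ
      by_contra hne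
      have hy0 : τ • x - x ≠ 0 := fun h => hne (sub_eq_zero.mp h)
      rcases isRed_zero_right_iff.mp h1 with h | h
      · exact hy0 h
      · have h2 := S12val.xc_mem_of_fixed hp hp2 hA hyfix hpy hy0
        rw [← A.valuation_le_one_iff] at h2
        exact absurd h (not_lt.mpr h2)
    · -- good reduction outside `p`
      obtain ⟨k, hk⟩ := hx
      exact smul_eq_of_torsion_of_good (W' := W.map (Int.castRingHom ℚ)) hτ
        (Fermat.Agent.Tate.val_prime_eq_one p hp hℓ hℓp hA k) (redEk W A) hΔ' hk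

end

end Fermat.Agent.Cor.K1
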