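import Fermat.Agent.Corollaries.K1.Tower
import Fermat.Agent.Corollaries.K1.Unram

/-!
# Mazur's theorem from its local and geometric inputs

The four inputs of the tower (`Tower.lean`) are reduced to statements about integral models:
`GoodModel p` (a semistable model over `ℤ` on which the rational point of order `p` lies outside
the identity component at every bad prime) and `Complement p` (the Galois-stable complement of
`⟨P⟩` in `E[p]` for such a model).
-/

set_option autoImplicit false

open WeierstrassCurve WeierstrassCurve.Affine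

namespace Fermat.Agent.Cor.K1

open Fermat.Agent.ECRed

/-- Every pair `(E, P)` with `P` rational of order `p` has a semistable model over `ℤ` on which
`P` lies outside the identity component at every prime dividing the discriminant. -/
def GoodModel (p : ℕ) : Prop :=
  ∀ (E : WeierstrassCurve ℚ) [E.IsElliptic] (P : Pts E), addOrderOf P = p →
    (∀ σ : Gam, σ • P = P) →
    ∃ (W : WeierstrassCurve ℤ) (e : Pts E ≃+ (EQ W).Point),
      (∀ (σ : Gam) (x : Pts E), e (σ • x) = σ • e x) ∧ W.Δ ≠ 0 ∧ W.IsSemistableModel ∧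
      ∀ ℓ : ℕ, ℓ.Prime → (ℓ : ℤ) ∣ W.Δ → ∀ A : ValuationSubring (AlgebraicClosure ℚ),
        A.LiesOverPrime ℓ → ¬ W.InZeroComponentAt A (e P)

/-- The Galois-stable complement of `⟨P⟩` in `E[p]`. -/
def Complement (p : ℕ) : Prop :=
  ∀ (W : WeierstrassCurve ℤ) (P : (EQ W).Point), W.Δ ≠ 0 → W.IsSemistableModel →
    addOrderOf P = p → (∀ σ : Gam, σ • P = P) →
    (∀ ℓ : ℕ, ℓ.Prime → (ℓ : ℤ) ∣ W.Δ → ∀ A : ValuationSubring (AlgebraicClosure ℚ),
        A.LiesOverPrime ℓ → ¬ W.InZeroComponentAt A P) →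
    ∃ C : AddSubgroup (EQ W).Point, Nat.card C = p ∧ (∀ σ : Gam, ∀ x ∈ C, σ • x ∈ C) ∧ P ∉ C ∧
      ∀ x : (EQ W).Point, p • x = 0 → ∃ k : ℤ, x - k • P ∈ C

/-- (H3) for curves with a good model. -/
theorem rationality_of_goodModel {p : ℕ} (hp : p.Prime) (hp2 : p ≠ 2) (HM : GoodModel p) :
    Rationality p := by
  intro E _ P hP hfix x hx hd σ
  obtain ⟨W, e, he, hΔ, hss, hcomp⟩ := HM E P hP hfix
  have hP' : addOrderOf (e P) = p := by
    rw [← hP]
    exact addOrderOf_injective e.toAddMonoidHom e.injective P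
  have hfix' : ∀ σ : Gam, σ • e P = e P := fun σ => by rw [← he, hfix]
  have hx' : ∃ k : ℕ, p ^ k • e x = 0 := by
    obtain ⟨k, hk⟩ := hx
    exact ⟨k, by rw [← map_nsmul, hk, map_zero]⟩
  have hd' : ∀ σ : Gam, σ • e x - e x ∈ AddSubgroup.zmultiples (e P) := by
    intro σ
    obtain ⟨m, hm⟩ := AddSubgroup.mem_zmultiples_iff.mp (hd σ)
    rw [← he, ← map_sub, ← hm, map_zsmul]
    exact AddSubgroup.mem_zmultiples_iff.mpr ⟨m, rfl⟩
  have h := smul_eq_of_mem_zmultiples hΔ hss hp hp2 hP' hfix' hcomp hx' hd' σ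
  rw [← he] at h
  exact e.injective h

/-- (H1) for curves with a good model. -/
theorem splits_of_goodModel {p : ℕ} (HM : GoodModel p) (HC : Complement p) : Splits p := by
  intro E _ P hP hfix
  obtain ⟨W, e, he, hΔ, hss, hcomp⟩ := HM E P hP hfix
  have hP' : addOrderOf (e P) = p := by
    rw [← hP]
    exact addOrderOf_injective e.toAddMonoidHom e.injective P
  have hfix' : ∀ σ : Gam, σ • e P = e P := fun σ => by rw [← he, hfix]
  obtain ⟨C, hCcard, hCst, hPC, hsum⟩ := HC W (e P) hΔ hss hP' hfix' hcomp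
  refine ⟨C.comap e.toAddMonoidHom, ?_, ?_, ?_, ?_⟩
  · intro σ x hx
    change e (σ • x) ∈ C
    rw [he]
    exact hCst σ _ hx
  · rw [← hCcard]
    exact Nat.card_congr
      { toFun := fun x => ⟨e x, x.2⟩
        invFun := fun y => ⟨e.symm y, by
          change e (e.symm y) ∈ C
          rw [AddEquiv.apply_symm_apply]
          exact y.2⟩
        left_inv := fun x => Subtype.ext (e.symm_apply_apply _)
        right_inv := fun y => Subtype.ext (e.apply_symm_apply _) }
  · exact hPC
  · intro x hx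
    obtain ⟨k, hk⟩ := hsum (e x) (by rw [← map_nsmul, hx, map_zero])
    refine AddSubgroup.mem_sup.mpr ⟨x - k • P, ?_, k • P,
      AddSubgroup.mem_zmultiples_iff.mpr ⟨k, rfl⟩, sub_add_cancel _ _⟩
    change e (x - k • P) ∈ C
    rw [map_sub, map_zsmul]
    exact hk

/-! ### From rational points to points over the algebraic closure -/

/-- The base change of a rational point is fixed by the Galois group. -/
theorem smul_baseChange (E : WeierstrassCurve ℚ) (σ : Gam) (P : (E⁄ℚ).Point) :
    σ • (Point.baseChange ℚ (AlgebraicClosure ℚ) P : Pts E) =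
      Point.baseChange ℚ (AlgebraicClosure ℚ) P :=
  Point.map_baseChange (W' := E) (σ : AlgebraicClosure ℚ →ₐ[ℚ] AlgebraicClosure ℚ) P

theorem addOrderOf_baseChange (E : WeierstrassCurve ℚ) (P : (E⁄ℚ).Point) :
    addOrderOf (Point.baseChange ℚ (AlgebraicClosure ℚ) P : Pts E) = addOrderOf P :=
  addOrderOf_injective _ (Point.map_injective (W' := E) _) P

theorem forall_point_of_forall_baseChange {p : ℕ}
    (h : ∀ (E : WeierstrassCurve ℚ) [E.IsElliptic] (P : (E⁄ℚ).Point), addOrderOf P ≠ p)
    (E : WeierstrassCurve ℚ) [E.IsElliptic] (P : E.toAffine.Point) : addOrderOf P ≠ p := by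
  have h1 : ∀ (C : WeierstrassCurve ℚ), C = (E⁄ℚ) → ∀ P : C.toAffine.Point, addOrderOf P ≠ p := by
    rintro C rfl P
    exact h E P
  exact h1 E E.map_id.symm P

/-- **Mazur's theorem from its inputs** (points over `ℚ̄` fixed by Galois). -/
theorem no_fixed_point_of_goodModel {p : ℕ} (hp : p.Prime) (hp2 : p ≠ 2) (H0 : Divisible p)
    (HM : GoodModel p) (HC : Complement p) (HQ : Quotients p)
    (H4 : ∀ (E : WeierstrassCurve ℚ) [E.IsElliptic], ∃ F : Gam,
      Finite (fixedPrim p (actHom E F)))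
    (E : WeierstrassCurve ℚ) [E.IsElliptic] (P : Pts E) (hfix : ∀ σ : Gam, σ • P = P) :
    addOrderOf P ≠ p := fun hP =>
  false_of_inputs hp H0 (splits_of_goodModel HM HC) HQ (rationality_of_goodModel hp hp2 HM) E P
    hP hfix (H4 E)

/-- **Mazur's theorem from its inputs.** -/
theorem mazur_of_goodModel {p : ℕ} (hp : p.Prime) (hp2 : p ≠ 2) (H0 : Divisible p)
    (HM : GoodModel p) (HC : Complement p) (HQ : Quotients p)
    (H4 : ∀ (E : WeierstrassCurve ℚ) [E.IsElliptic], ∃ F : Gam,
      Finite (fixedPrim p (actHom E F)))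
    (E : WeierstrassCurve ℚ) [E.IsElliptic] (P : E.toAffine.Point) : addOrderOf P ≠ p := by
  refine forall_point_of_forall_baseChange (fun E _ P hP => ?_) E P
  refine no_fixed_point_of_goodModel hp hp2 H0 HM HC HQ H4 E
    (Point.baseChange ℚ (AlgebraicClosure ℚ) P) (fun σ => smul_baseChange E σ P) ?_
  rw [addOrderOf_baseChange, hP]

end Fermat.Agent.Cor.K1
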