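import Fermat.Agent.Corollaries.K1.Tower
import Fermat.Agent.Corollaries.Mazur.FixFin
import Fermat.Agent.S41.VarChange
import Fermat.Agent.Torsion.Card

/-!
# Inputs (H0) and (H4) of the tower of isogenies

* `exists_integral_model`: every curve over `ℚ` has an integral model.
* `exists_finite_fixedPrim`: for every elliptic curve over `ℚ` there is an element of the Galois
  group fixing only finitely many points of `p`-power order.
* `divisible`: multiplication by `p` is surjective on `E(ℚ̄)`.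
-/

set_option autoImplicit false

open WeierstrassCurve WeierstrassCurve.Affine

namespace Fermat.Agent.Cor.K1

/-- A rational number `q` times a multiple of its denominator is an integer. -/
theorem exists_int_of_dvd (q : ℚ) {d : ℕ} (hd : q.den ∣ d) : ∃ n : ℤ, (n : ℚ) = (d : ℚ) * q := by
  obtain ⟨c, rfl⟩ := hd
  refine ⟨c * q.num, ?_⟩
  push_cast
  have h := Rat.mul_den_eq_num q
  linear_combination (-(c : ℚ)) * h

/-- **Every Weierstrass curve over `ℚ` has an integral model.** -/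
theorem exists_integral_model (E : WeierstrassCurve ℚ) :
    ∃ W : WeierstrassCurve ℤ, W.IsIntegralModelOf E := by
  let d : ℕ := E.a₁.den * E.a₂.den * E.a₃.den * E.a₄.den * E.a₆.den
  have hd : d ≠ 0 := by
    simp only [d, ne_eq, mul_eq_zero, Rat.den_ne_zero, or_self, not_false_eq_true]
  have hdq : (d : ℚ) ≠ 0 := Nat.cast_ne_zero.mpr hd
  have e1 : E.a₁.den ∣ d ^ 1 := by
    rw [pow_one]; exact ⟨E.a₂.den * E.a₃.den * E.a₄.den * E.a₆.den, by simp only [d]; ring⟩
  have e2 : E.a₂.den ∣ d ^ 2 := Dvd.dvd.trans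
    ⟨E.a₁.den * E.a₃.den * E.a₄.den * E.a₆.den, by simp only [d]; ring⟩ (dvd_pow_self d two_ne_zero)
  have e3 : E.a₃.den ∣ d ^ 3 := Dvd.dvd.trans
    ⟨E.a₁.den * E.a₂.den * E.a₄.den * E.a₆.den, by simp only [d]; ring⟩ (dvd_pow_self d three_ne_zero)
  have e4 : E.a₄.den ∣ d ^ 4 := Dvd.dvd.trans
    ⟨E.a₁.den * E.a₂.den * E.a₃.den * E.a₆.den, by simp only [d]; ring⟩ (dvd_pow_self d (by norm_num))
  have e6 : E.a₆.den ∣ d ^ 6 := Dvd.dvd.trans
    ⟨E.a₁.den * E.a₂.den * E.a₃.den * E.a₄.den, by simp only [d]; ring⟩ (dvd_pow_self d (by norm_num))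
  obtain ⟨b1, h1⟩ := exists_int_of_dvd E.a₁ e1
  obtain ⟨b2, h2⟩ := exists_int_of_dvd E.a₂ e2
  obtain ⟨b3, h3⟩ := exists_int_of_dvd E.a₃ e3
  obtain ⟨b4, h4⟩ := exists_int_of_dvd E.a₄ e4
  obtain ⟨b6, h6⟩ := exists_int_of_dvd E.a₆ e6
  refine ⟨⟨b1, b2, b3, b4, b6⟩, ⟨(Units.mk0 (d : ℚ) hdq)⁻¹, 0, 0, 0⟩, ?_⟩
  push_cast at h1 h2 h3 h4 h6
  refine WeierstrassCurve.ext ?_ ?_ ?_ ?_ ?_
  · rw [variableChange_a₁]
    simp only [inv_inv, Units.val_mk0, WeierstrassCurve.map_a₁, eq_intCast, h1]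
    ring
  · rw [variableChange_a₂]
    simp only [inv_inv, Units.val_mk0, WeierstrassCurve.map_a₂, eq_intCast, h2]
    ring
  · rw [variableChange_a₃]
    simp only [inv_inv, Units.val_mk0, WeierstrassCurve.map_a₃, eq_intCast, h3]
    ring
  · rw [variableChange_a₄]
    simp only [inv_inv, Units.val_mk0, WeierstrassCurve.map_a₄, eq_intCast, h4]
    ring
  · rw [variableChange_a₆]
    simp only [inv_inv, Units.val_mk0, WeierstrassCurve.map_a₆, eq_intCast, h6]
    ring

/-- (H0). -/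
theorem divisible {p : ℕ} (hp : p.Prime) : Divisible p := by
  intro E _ x
  have hΔ : (E⁄(AlgebraicClosure ℚ) : WeierstrassCurve (AlgebraicClosure ℚ)).Δ ≠ 0 := by
    rw [show (E⁄(AlgebraicClosure ℚ) : WeierstrassCurve (AlgebraicClosure ℚ)) =
      E.map (algebraMap ℚ (AlgebraicClosure ℚ)) from rfl, WeierstrassCurve.map_Δ]
    exact (map_ne_zero_iff _ (algebraMap ℚ (AlgebraicClosure ℚ)).injective).mpr E.isUnit_Δ.ne_zero
  exact Fermat.Agent.Torsion.surjective_nsmul hΔ hp.ne_zero x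

/-- The points fixed by an element of the Galois group, through an equivariant injection. -/
theorem finite_fixedPrim_of_injective {E E' : WeierstrassCurve ℚ} {p : ℕ} (F : Gam)
    (e : Pts E' →+ Pts E) (he : Function.Injective e) (hF : ∀ x, e (F • x) = F • e x)
    (h : Finite (fixedPrim p (actHom E F))) : Finite (fixedPrim p (actHom E' F)) := by
  refine Finite.of_injective (fun x : fixedPrim p (actHom E' F) =>
    (⟨e x.1, ?_, ?_⟩ : fixedPrim p (actHom E F))) ?_
  · obtain ⟨⟨k, hk⟩, -⟩ := x.2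
    exact ⟨k, by rw [← map_nsmul, hk, map_zero]⟩
  · have h2 : F • x.1 = x.1 := x.2.2
    change F • e x.1 = e x.1
    rw [← hF, h2]
  · intro x y hxy
    exact Subtype.ext (he (congrArg (fun z : fixedPrim p (actHom E F) => (z : Pts E)) hxy))

/-- (H4): one element of the Galois group fixes only finitely many points of `p`-power order. -/
theorem exists_finite_fixedPrim {p : ℕ} (hp : p.Prime) (E : WeierstrassCurve ℚ) [E.IsElliptic] :
    ∃ F : Gam, Finite (fixedPrim p (actHom E F)) := by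
  obtain ⟨W, C, hC⟩ := exists_integral_model E
  have hE : E.Δ ≠ 0 := E.isUnit_Δ.ne_zero
  have hW : W.Δ ≠ 0 := Fermat.Agent.S41vc.Δ_ne_zero_of_isIntegralModelOf ⟨C, hC⟩
  obtain ⟨F, hF⟩ := Mazur.exists_finite_Fix hW hp
  let i : fixedPrim p (actHom (W.map (Int.castRingHom ℚ)) F) → Mazur.Fix p
      (DistribSMul.toAddMonoidHom ((W.map (Int.castRingHom ℚ))⁄(AlgebraicClosure ℚ)).Point F) :=
    fun x => ⟨x.1, x.2.2, x.2.1⟩
  have hi : Function.Injective i := fun x y hxy =>
    Subtype.ext (congrArg (fun z : Mazur.Fix p (DistribSMul.toAddMonoidHom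
      ((W.map (Int.castRingHom ℚ))⁄(AlgebraicClosure ℚ)).Point F) => z.1) hxy)
  have hF' : Finite (fixedPrim p (actHom (W.map (Int.castRingHom ℚ)) F)) :=
    Finite.of_injective i hi
  obtain ⟨e, he⟩ := Fermat.Agent.S41vc.exists_equiv_galois hE hC
  refine ⟨F, finite_fixedPrim_of_injective F e.symm.toAddMonoidHom e.symm.injective ?_ hF'⟩
  intro x
  change e.symm (F • x) = F • e.symm x
  rw [AddEquiv.symm_apply_eq, he, AddEquiv.apply_symm_apply]

end Fermat.Agent.Cor.K1
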