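import Fermat.Agent.Corollaries.K1.Glue
import Fermat.Agent.Corollaries.K1.H4
import Fermat.Agent.Corollaries.Mazur.Split

/-!
# Mazur's theorem from good models and quotients

The inputs (H0), (H3), (H4) and the complement (statement S14) are inserted: what remains are
`GoodModel p` and `Quotients p`.
-/

set_option autoImplicit false

open WeierstrassCurve WeierstrassCurve.Affine

namespace Fermat.Agent.Cor.K1

/-- The Galois-stable complement (statement S14). -/
theorem complement {p : ℕ} (hp : p.Prime) (hp3 : 3 ≤ p) : Complement p := by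
  intro W P hΔ hss hP hfix hcomp
  have : Fact p.Prime := ⟨hp⟩
  obtain ⟨C, hst, hcard, -, hPC, hsum⟩ := Mazur.exists_complement hp3 hΔ hss hP hfix
    (fun ℓ hℓ _ hd A hA => hcomp ℓ hℓ hd A hA)
  refine ⟨C, hcard, hst, hPC, fun x hx => ?_⟩
  obtain ⟨a, ha, b, hb, hab⟩ := AddSubgroup.mem_sup.mp (hsum x hx)
  obtain ⟨k, rfl⟩ := AddSubgroup.mem_zmultiples_iff.mp hb
  refine ⟨k, ?_⟩
  rw [← hab, add_sub_cancel_right]
  exact ha

/-- **No elliptic curve over `ℚ` has a point of order `p` over `ℚ̄` fixed by Galois**, from good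
models and quotients. -/
theorem no_fixed_point_of {p : ℕ} (hp : p.Prime) (hp3 : 3 ≤ p) (HM : GoodModel p)
    (HQ : Quotients p) (E : WeierstrassCurve ℚ) [E.IsElliptic] (P : Pts E)
    (hfix : ∀ σ : Gam, σ • P = P) : addOrderOf P ≠ p :=
  no_fixed_point_of_goodModel hp (by omega) (divisible hp) HM (complement hp hp3) HQ
    (fun E _ => exists_finite_fixedPrim hp E) E P hfix

/-- **No elliptic curve over `ℚ` has a rational point of order `p`**, from good models and
quotients. -/
theorem mazur_of {p : ℕ} (hp : p.Prime) (hp3 : 3 ≤ p) (HM : GoodModel p) (HQ : Quotients p)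
    (E : WeierstrassCurve ℚ) [E.IsElliptic] (P : E.toAffine.Point) : addOrderOf P ≠ p :=
  mazur_of_goodModel hp (by omega) (divisible hp) HM (complement hp hp3) HQ
    (fun E _ => exists_finite_fixedPrim hp E) E P

end Fermat.Agent.Cor.K1
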