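import Fermat.Agent.S15.Val

/-!
# The quotient of an elliptic curve by a finite subgroup of odd order: algebra

For a curve `W` over an algebraically closed field of characteristic `≠ 2, 3` and a finite subgroup
`N` of odd order, the trace zero roots `rt` of the quotient curve, the symmetric functions `A4`,
`A6` of these roots, and the resulting isogeny, which is surjective.
-/

set_option autoImplicit false

namespace Fermat.Agent.Cor

open WeierstrassCurve WeierstrassCurve.Affine WeierstrassCurve.Affine.Point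
open Fermat.Agent.Isog Polynomial
open Fermat.Agent.Moduli (dd)
open Fermat.Agent.S15x (dd_swap)

variable {F : Type*} [Field F] [DecidableEq F] {W : Affine F}
variable {N : AddSubgroup W.Point} [Fintype N] [DecidableEq N] {e e' e'' : F}

/-- two splittings differ by a permutation. -/
theorem split_perm (hs : Split W e e' e'') {f f' f'' : F} (ht : Split W f f' f'') :
    (f = e ∧ f' = e' ∧ f'' = e'') ∨ (f = e ∧ f' = e'' ∧ f'' = e') ∨
    (f = e' ∧ f' = e ∧ f'' = e'') ∨ (f = e' ∧ f' = e'' ∧ f'' = e) ∨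
    (f = e'' ∧ f' = e ∧ f'' = e') ∨ (f = e'' ∧ f' = e' ∧ f'' = e) := by
  have h4 := hs.four
  have h1 : e + e' + e'' = f + f' + f'' := by
    have := hs.b₂.symm.trans ht.b₂
    apply mul_left_cancel₀ h4
    linear_combination -this
  have h2 : e * e' + e * e'' + e' * e'' = f * f' + f * f'' + f' * f'' := by
    have := hs.b₄.symm.trans ht.b₄
    exact mul_left_cancel₀ hs.two this
  have h3 : e * e' * e'' = f * f' * f'' := by
    have := hs.b₆.symm.trans ht.b₆
    apply mul_left_cancel₀ h4
    linear_combination -this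
  have key : ∀ x : F, (x - e) * (x - e') * (x - e'') = (x - f) * (x - f') * (x - f'') := by
    intro x
    linear_combination (-x ^ 2) * h1 + x * h2 - h3
  have k1 := key f
  rw [sub_self, zero_mul, zero_mul, mul_eq_zero, mul_eq_zero, sub_eq_zero, sub_eq_zero,
    sub_eq_zero] at k1
  have k2 := key f'
  rw [sub_self, mul_zero, zero_mul, mul_eq_zero, mul_eq_zero, sub_eq_zero, sub_eq_zero,
    sub_eq_zero] at k2
  have k3 := key f''
  rw [sub_self, mul_zero, mul_eq_zero, mul_eq_zero, sub_eq_zero, sub_eq_zero,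
    sub_eq_zero] at k3
  have n1 := ht.ne₁
  have n2 := ht.ne₂
  have n3 := ht.ne₃
  rcases k1 with (k1 | k1) | k1 <;> rcases k2 with (k2 | k2) | k2 <;>
    rcases k3 with (k3 | k3) | k3 <;>
    first
      | exact absurd (k1.trans k2.symm) n1
      | exact absurd (k1.trans k3.symm) n2
      | exact absurd (k2.trans k3.symm) n3
      | (simp only [k1, k2, k3]; tauto)

variable (N) in
/-- the root of the quotient curve attached to `e` (trace zero normalization). -/
def rt (e e' e'' : F) : F := -(dd N e e' e'' + dd N e e'' e') / 3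

theorem rt_swap (e e' e'' : F) : rt N e e'' e' = rt N e e' e'' := by
  unfold rt; rw [add_comm]

/-- the cocycle relation. -/
theorem dd_sum (hs : Split W e e' e'') (hodd : Odd (Fintype.card N)) :
    dd N e e' e'' + dd N e' e'' e + dd N e'' e e' = 0 := by
  obtain ⟨T, hT⟩ := hs.exists_two
  obtain ⟨T', hT'⟩ := hs.rot.exists_two
  obtain ⟨T'', hT''⟩ := hs.rot.rot.exists_two
  have hk := kap_ne_zero hodd hT
  have hk' := kap_ne_zero hodd hT'
  have hk'' := kap_ne_zero hodd hT''
  have h := hs.relation hodd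
  unfold dd
  field_simp
  linear_combination h

theorem dd_ne_zero (hs : Split W e e' e'') (hodd : Odd (Fintype.card N)) :
    dd N e e' e'' ≠ 0 := by
  obtain ⟨T, hT⟩ := hs.exists_two
  obtain ⟨T', hT'⟩ := hs.rot.exists_two
  obtain ⟨T'', hT''⟩ := hs.rot.rot.exists_two
  have hk := kap_ne_zero hodd hT
  have hk' := kap_ne_zero hodd hT'
  have hk'' := kap_ne_zero hodd hT''
  have he := sub_ne_zero.mpr hs.ne₁.symm
  unfold dd
  exact div_ne_zero (mul_ne_zero (pow_ne_zero _ he) hk'') (mul_ne_zero hk' hk)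

theorem rt_sub (hs : Split W e e' e'') (hodd : Odd (Fintype.card N)) (h3 : (3 : F) ≠ 0) :
    rt N e' e'' e - rt N e e' e'' = dd N e e' e'' := by
  have h1 := dd_sum hs hodd
  have h2 := dd_swap (N := N) hodd e e' e''
  have h4 := dd_swap (N := N) hodd e'' e e'
  unfold rt
  rw [h4, h2]
  field_simp
  linear_combination (-1 : F) * h1

theorem rt_sub' (hs : Split W e e' e'') (hodd : Odd (Fintype.card N)) (h3 : (3 : F) ≠ 0) :
    rt N e'' e e' - rt N e e' e'' = dd N e e'' e' := by
  have h := rt_sub (N := N) hs.swap' hodd h3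
  rwa [rt_swap e e' e'', rt_swap e'' e e'] at h

theorem rt_sum (hodd : Odd (Fintype.card N)) :
    rt N e e' e'' + rt N e' e'' e + rt N e'' e e' = 0 := by
  have h2 := dd_swap (N := N) hodd e e' e''
  have h4 := dd_swap (N := N) hodd e'' e e'
  have h5 := dd_swap (N := N) hodd e' e'' e
  unfold rt
  rw [h2, h4, h5]
  ring

variable (N) in
/-- the coefficient `a₄` of the quotient curve. -/
def A4 (e e' e'' : F) : F :=
  rt N e e' e'' * rt N e' e'' e + rt N e e' e'' * rt N e'' e e' + rt N e' e'' e * rt N e'' e e'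

variable (N) in
/-- the coefficient `a₆` of the quotient curve. -/
def A6 (e e' e'' : F) : F := -(rt N e e' e'' * rt N e' e'' e * rt N e'' e e')

theorem A4_swap (e e' e'' : F) : A4 N e e'' e' = A4 N e e' e'' := by
  unfold A4
  rw [rt_swap e e' e'', rt_swap e'' e e', rt_swap e' e'' e]
  ring

theorem A4_rot (e e' e'' : F) : A4 N e' e'' e = A4 N e e' e'' := by
  unfold A4; ring

theorem A6_swap (e e' e'' : F) : A6 N e e'' e' = A6 N e e' e'' := by
  unfold A6
  rw [rt_swap e e' e'', rt_swap e'' e e', rt_swap e' e'' e]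
  ring

theorem A6_rot (e e' e'' : F) : A6 N e' e'' e = A6 N e e' e'' := by
  unfold A6; ring

theorem A4_eq_of_split (hs : Split W e e' e'') {f f' f'' : F} (ht : Split W f f' f'') :
    A4 N f f' f'' = A4 N e e' e'' := by
  rcases split_perm hs ht with ⟨rfl, rfl, rfl⟩ | ⟨rfl, rfl, rfl⟩ | ⟨rfl, rfl, rfl⟩ |
    ⟨rfl, rfl, rfl⟩ | ⟨rfl, rfl, rfl⟩ | ⟨rfl, rfl, rfl⟩
  · rfl
  · exact A4_swap _ _ _
  · rw [← A4_swap, A4_rot, A4_rot]
  · rw [A4_rot]
  · rw [A4_rot, A4_rot]
  · rw [← A4_swap, A4_rot, A4_rot]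

theorem A6_eq_of_split (hs : Split W e e' e'') {f f' f'' : F} (ht : Split W f f' f'') :
    A6 N f f' f'' = A6 N e e' e'' := by
  rcases split_perm hs ht with ⟨rfl, rfl, rfl⟩ | ⟨rfl, rfl, rfl⟩ | ⟨rfl, rfl, rfl⟩ |
    ⟨rfl, rfl, rfl⟩ | ⟨rfl, rfl, rfl⟩ | ⟨rfl, rfl, rfl⟩
  · rfl
  · exact A6_swap _ _ _
  · rw [← A6_swap, A6_rot, A6_rot]
  · rw [A6_rot]
  · rw [A6_rot, A6_rot]
  · rw [← A6_swap, A6_rot, A6_rot]

variable (N) in
/-- the `x`-coordinate on the quotient curve. -/
def XX (e e' e'' : F) (P : W.Point) : F := rt N e e' e'' + fN N e P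

theorem XX_swap (e e' e'' : F) (P : W.Point) : XX N e e'' e' P = XX N e e' e'' P := by
  unfold XX; rw [rt_swap]

theorem XX_rot (hs : Split W e e' e'') (hodd : Odd (Fintype.card N)) (h3 : (3 : F) ≠ 0)
    {P : W.Point} (hP : P ∉ N) : XX N e' e'' e P = XX N e e' e'' P := by
  obtain ⟨T, hT⟩ := hs.exists_two
  obtain ⟨T', hT'⟩ := hs.rot.exists_two
  have h1 := hs.fN_sub hodd hT hT' hP
  have h2 := rt_sub (N := N) hs hodd h3
  have h4 := hs.fN_two hodd hT hT'
  unfold XX
  unfold dd at h2
  rw [h4] at h1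
  linear_combination h2 - h1

theorem XX_eq_of_split (hs : Split W e e' e'') (hodd : Odd (Fintype.card N)) (h3 : (3 : F) ≠ 0)
    {P : W.Point} (hP : P ∉ N) {f f' f'' : F} (ht : Split W f f' f'') :
    XX N f f' f'' P = XX N e e' e'' P := by
  rcases split_perm hs ht with ⟨rfl, rfl, rfl⟩ | ⟨rfl, rfl, rfl⟩ | ⟨rfl, rfl, rfl⟩ |
    ⟨rfl, rfl, rfl⟩ | ⟨rfl, rfl, rfl⟩ | ⟨rfl, rfl, rfl⟩
  · rfl
  · exact XX_swap _ _ _ _
  · rw [← XX_swap f f' f'', XX_rot hs hodd h3 hP]
  · rw [XX_rot hs hodd h3 hP]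
  · rw [XX_rot ht hodd h3 hP]
  · rw [← XX_swap f'' f' f, XX_rot hs.swap' hodd h3 hP]

variable (N) in
/-- the quotient curve. -/
def quotCurve (e e' e'' : F) : Affine F := ⟨0, 0, 0, A4 N e e' e'', A6 N e e' e''⟩

/-- any curve with the right coefficients is the target of the quotient map. -/
theorem target_of (hs : Split W e e' e'') (hodd : Odd (Fintype.card N)) (h3 : (3 : F) ≠ 0)
    {W' : Affine F} (h₁ : W'.a₁ = 0) (h₂ : W'.a₂ = 0) (h₃ : W'.a₃ = 0)
    (h₄ : W'.a₄ = A4 N e e' e'') (h₆ : W'.a₆ = A6 N e e' e'') :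
    Target N W' e e' e'' (rt N e e' e'') (rt N e' e'' e) (rt N e'' e e') 1 where
  src := hs
  odd := hodd
  tgt :=
    { b₂ := by
        have h := rt_sum (N := N) (e := e) (e' := e') (e'' := e'') hodd
        rw [WeierstrassCurve.b₂, h₁, h₂, h]; ring
      b₄ := by
        rw [WeierstrassCurve.b₄, h₁, h₃, h₄, A4]; ring
      b₆ := by
        rw [WeierstrassCurve.b₆, h₃, h₆, A6]; ring
      ne₁ := by
        intro h
        refine dd_ne_zero (N := N) hs hodd ?_
        rw [← rt_sub hs hodd h3, h, sub_self]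
      ne₂ := by
        intro h
        refine dd_ne_zero (N := N) hs.swap' hodd ?_
        rw [← rt_sub' hs hodd h3, h, sub_self]
      ne₃ := by
        intro h
        refine dd_ne_zero (N := N) hs.rot hodd ?_
        rw [← rt_sub hs.rot hodd h3, h, sub_self]
      two := hs.two }
  u_ne := one_ne_zero
  h' := by
    intro T' hT'
    obtain ⟨T, hT⟩ := hs.exists_two
    rw [one_pow, one_mul, hs.fN_two hodd hT hT']
    exact rt_sub hs hodd h3
  h'' := by
    intro T'' hT''
    obtain ⟨T, hT⟩ := hs.exists_two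
    rw [one_pow, one_mul, hs.swap'.fN_two hodd hT hT'']
    exact rt_sub' hs hodd h3

/-- the quotient map is surjective over an algebraically closed field. -/
theorem surjective_hom [IsAlgClosed F] {W' : Affine F} {E E' E'' u : F}
    (t : Target N W' e e' e'' E E' E'' u) : Function.Surjective t.hom := by
  classical
  intro Q
  by_cases hQ : Q = 0
  · exact ⟨0, by rw [hQ, _root_.map_zero]⟩
  obtain ⟨T, hT⟩ := t.src.exists_two
  set c : F := (xc Q - E) / u ^ 2 with hc
  have hu2 : u ^ 2 ≠ 0 := pow_ne_zero 2 t.u_ne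
  -- a root of `num - c * den`
  have hcard : 0 < Fintype.card N := Fintype.card_pos
  have hdeg : (num N T - C c * den N).natDegree = Fintype.card N := by
    have h1 : (C c * den N).natDegree < (num N T).natDegree := by
      refine (natDegree_C_mul_le _ _).trans_lt ?_
      rw [den_natDegree, num_natDegree]
      omega
    rw [natDegree_sub_eq_left_of_natDegree_lt h1, num_natDegree]
  obtain ⟨x, hx⟩ := IsAlgClosed.exists_root (num N T - C c * den N) (by
    have h1 := degree_ne_of_natDegree_ne (p := num N T - C c * den N) (n := 0) (by omega)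
    simpa using h1)
  have hx' : (num N T).eval x = c * (den N).eval x := by
    have h1 : (num N T - C c * den N).eval x = 0 := hx
    rw [eval_sub, eval_mul, eval_C, sub_eq_zero] at h1
    exact h1
  obtain ⟨η, hη⟩ := IsAlgClosed.exists_pow_nat_eq (4 * ((x - e) * (x - e') * (x - e'')))
    (n := 2) (by norm_num)
  obtain ⟨P, hP0, hPx, hPη⟩ := t.src.exists_point hη
  have hPN : P ∉ N := by
    intro hPN
    have h1 : (den N).eval x = 0 := by
      rw [eval_den]
      refine Finset.prod_eq_zero (i := (⟨P, hPN⟩ : N)) ?_ ?_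
      · rw [mem_nz]
        exact fun h => hP0 (congrArg Subtype.val h)
      · rw [← hPx, sub_self]
    rw [h1, mul_zero, eval_num, Finset.prod_eq_zero_iff] at hx'
    obtain ⟨S, -, hS⟩ := hx'
    have hTS : T + (S : W.Point) ≠ 0 := by
      intro h
      refine hT.notMem t.odd ?_
      rw [eq_neg_of_add_eq_zero_left h]
      exact N.neg_mem S.2
    rw [sub_eq_zero, ← hPx] at hS
    rcases eq_or_eq_neg_of_xc_eq hP0 hTS hS with h | h
    · refine hT.notMem t.odd ?_
      have := N.sub_mem (h ▸ hPN) S.2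
      rwa [add_sub_cancel_right] at this
    · refine hT.notMem t.odd ?_
      have h2 : -(T + (S : W.Point)) ∈ N := h ▸ hPN
      have := N.sub_mem (N.neg_mem h2) S.2
      rwa [neg_neg, add_sub_cancel_right] at this
  have hxc : xc (t.hom P) = xc Q := by
    rw [t.hom_apply, t.xc_phi hPN, t.src.fN_eq t.odd hT hPN, hPx, hx',
      mul_div_cancel_right₀ _ (hPx ▸ eval_den_ne_zero hPN), hc]
    have h1 : u ^ 2 * ((xc Q - E) / u ^ 2) = xc Q - E := by
      have := t.u_ne
      field_simp
    rw [h1]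
    ring
  rcases eq_or_eq_neg_of_xc_eq (t.phi_ne hPN) hQ hxc with h | h
  · exact ⟨P, h⟩
  · exact ⟨-P, by rw [map_neg, t.hom_apply, h, neg_neg]⟩

end Fermat.Agent.Cor
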